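/-
S59lib / StrictW / CompInv  (helper6) — Project I, block STRICT-W (C3).

The component function `S05lib.NodeData.comp` of the node model in coordinates which are invariant
under the decomposition group: `ξ = x + c` with `v c = v b`, and a slope `β₀` with `v (β - β₀) ≤ v b`.
Also: changing `β` to `-β` inverts the component function.
-/
import Fermat.Agent.S05lib.Node
import Fermat.Agent.S05lib.NodeTorsion

set_option autoImplicit false
set_option linter.unusedSectionVars false

noncomputable section

namespace Fermat.Agent.S59lib.StrictW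

open WeierstrassCurve WeierstrassCurve.Affine Fermat.Agent.S05lib

variable {K : Type*} [Field K] [DecidableEq K] {Γ₀ : Type*} [LinearOrderedCommGroupWithZero Γ₀]
  {v : Valuation K Γ₀} {a b β : K}

/-- the component function in shifted coordinates -/
def compS (v : Valuation K Γ₀) (δ : Γ₀) (β₀ ξ η : K) : Γ₀ :=
  if 1 ≤ v ξ then 1 else if v ξ ≤ δ then δ
    else if v (η - β₀ * ξ) < v ξ then v ξ else (v ξ)⁻¹

theorem comp_some (x y : K) (hxy : (legW a b).toAffine.Nonsingular x y) :
    comp v a b β (Point.some x y hxy) = if 1 ≤ v x then 1 else if v x ≤ v b then v b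
      else if v (y - β * x) < v x then v x else (v x)⁻¹ := rfl

/-- **the component function in shifted coordinates.** -/
theorem comp_eq_compS (h : NodeData v a b β) {c β₀ : K} (hc : v c = v b)
    (hβ₀ : v (β - β₀) ≤ v b) {x y : K} (hxy : (legW a b).toAffine.Nonsingular x y) :
    comp v a b β (Point.some x y hxy) = compS v (v b) β₀ (x + c) y := by
  rw [comp_some, compS]
  have hb1 : v b < 1 := h.hb
  by_cases h1 : 1 ≤ v x
  · have e : v (x + c) = v x :=
      Valuation.map_add_eq_of_lt_left _ (by rw [hc]; exact lt_of_lt_of_le hb1 h1)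
    rw [if_pos h1, if_pos (by rw [e]; exact h1)]
  · push Not at h1
    by_cases h2 : v x ≤ v b
    · have e : v (x + c) ≤ v b := Valuation.map_add_le _ h2 hc.le
      rw [if_neg (not_le.mpr h1), if_pos h2, if_neg (not_le.mpr (lt_of_le_of_lt e hb1)), if_pos e]
    · push Not at h2
      have e : v (x + c) = v x := Valuation.map_add_eq_of_lt_left _ (by rw [hc]; exact h2)
      rw [if_neg (not_le.mpr h1), if_neg (not_le.mpr h2), e, if_neg (not_le.mpr h1),
        if_neg (not_le.mpr h2)]
      have hβ₀1 : v β₀ ≤ 1 := by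
        have e' : β₀ = β - (β - β₀) := by ring
        rw [e']
        exact Valuation.map_sub_le _ h.hβ1.le (le_trans hβ₀ hb1.le)
      have hsmall : v ((β - β₀) * x - β₀ * c) < v x := by
        apply Valuation.map_sub_lt
        · rw [map_mul]
          calc v (β - β₀) * v x ≤ v b * 1 := mul_le_mul' hβ₀ h1.le
            _ = v b := mul_one _
            _ < v x := h2
        · rw [map_mul, hc]
          calc v β₀ * v b ≤ 1 * v b := mul_le_mul' hβ₀1 le_rfl
            _ = v b := one_mul _
            _ < v x := h2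
      have hiff : v (y - β₀ * (x + c)) < v x ↔ v (y - β * x) < v x := by
        constructor
        · intro hlt
          have e' : y - β * x = (y - β₀ * (x + c)) - ((β - β₀) * x - β₀ * c) := by ring
          rw [e']
          exact Valuation.map_sub_lt _ hlt hsmall
        · intro hlt
          have e' : y - β₀ * (x + c) = (y - β * x) + ((β - β₀) * x - β₀ * c) := by ring
          rw [e']
          exact Valuation.map_add_lt _ hlt hsmall
      by_cases h3 : v (y - β * x) < v x
      · rw [if_pos h3, if_pos (hiff.mpr h3)]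
      · rw [if_neg h3, if_neg (fun h' => h3 (hiff.mp h'))]

/-- the node data for `-β` -/
theorem nodeData_neg (h : NodeData v a b β) : NodeData v a b (-β) where
  hb := h.hb
  hb0 := h.hb0
  hβ := by rw [neg_sq]; exact h.hβ
  hβ1 := by rw [Valuation.map_neg]; exact h.hβ1
  h2 := h.h2

/-- **changing the sign of `β` inverts the component function.** -/
theorem comp_neg_beta_mul (h : NodeData v a b β) (P : (legW a b).toAffine.Point) :
    Cong v b (comp v a b (-β) P * comp v a b β P) 1 := by
  rcases P with _ | ⟨x, y, hxy⟩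
  · show Cong v b (1 * 1) 1
    rw [one_mul]; exact Cong.refl _
  · rw [comp_some, comp_some]
    by_cases h1 : 1 ≤ v x
    · rw [if_pos h1, if_pos h1, one_mul]; exact Cong.refl _
    · by_cases h2 : v x ≤ v b
      · rw [if_neg h1, if_pos h2, if_neg h1, if_pos h2]
        exact Cong.sq_one
      · rw [if_neg h1, if_neg h2, if_neg h1, if_neg h2]
        push Not at h1 h2
        have hx0 : v x ≠ 0 := (lt_trans h.vb_pos h2).ne'
        have e : y - -β * x = y + β * x := by ring
        rw [e]
        by_cases h3 : v (y - β * x) < v x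
        · have h4 : ¬ v (y + β * x) < v x := by rw [h.v_plus_other h3]; exact lt_irrefl _
          rw [if_pos h3, if_neg h4, inv_mul_cancel₀ hx0]
          exact Cong.refl _
        · have heq := (leg_equation_iff a b x y).mp hxy.1
          have h4 : v (y + β * x) < v x := (h.near_plus_or_minus heq h1 h2).resolve_left h3
          rw [if_neg h3, if_pos h4, mul_inv_cancel₀ hx0]
          exact Cong.refl _

/-- `comp (-P) * comp P ≡ 1` -/
theorem comp_neg_mul (h : NodeData v a b β) (P : (legW a b).toAffine.Point) :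
    Cong v b (comp v a b β (-P) * comp v a b β P) 1 := by
  have := h.comp_add (-P) P
  rw [neg_add_cancel, h.comp_zero] at this
  exact this.symm h.hb0

/-- a square root of `a` close to a given square root `β₀` of a nearby `a₀` -/
theorem exists_matched_sqrt [IsAlgClosed K] (h2 : v (2 : K) = 1) {a' a₀ β₀ : K} {δ : Γ₀}
    (hβ₀ : β₀ ^ 2 = a₀) (hv : v β₀ = 1) (hδ : v (a' - a₀) ≤ δ) (hδ1 : δ < 1) :
    ∃ β' : K, β' ^ 2 = a' ∧ v (β' - β₀) ≤ δ := by
  obtain ⟨β₁, hβ₁⟩ := IsAlgClosed.exists_pow_nat_eq a' (n := 2) (by norm_num)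
  have hprod : (β₁ - β₀) * (β₁ + β₀) = a' - a₀ := by rw [← hβ₁, ← hβ₀]; ring
  have hva : v a' = 1 := by
    have e : a' = a₀ + (a' - a₀) := by ring
    have ha₀ : v a₀ = 1 := by rw [← hβ₀, map_pow, hv, one_pow]
    rw [e, Valuation.map_add_eq_of_lt_left _ (by rw [ha₀]; exact lt_of_le_of_lt hδ hδ1), ha₀]
  have hv1 : v β₁ = 1 := by
    have h1 : v β₁ ^ 2 = 1 := by rw [← map_pow, hβ₁, hva]
    exact (pow_eq_one_iff_of_nonneg zero_le two_ne_zero).mp h1
  have hm : v (β₁ - β₀) ≤ 1 := Valuation.map_sub_le _ hv1.le hv.le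
  have hp : v (β₁ + β₀) ≤ 1 := Valuation.map_add_le _ hv1.le hv.le
  have hpv : v (β₁ - β₀) * v (β₁ + β₀) ≤ δ := by rw [← map_mul, hprod]; exact hδ
  by_cases hlt : v (β₁ - β₀) < 1
  · -- then `β₁ + β₀` is a unit
    have hunit : v (β₁ + β₀) = 1 := by
      have e : β₁ + β₀ = 2 * β₁ - (β₁ - β₀) := by ring
      have h2β : v (2 * β₁) = 1 := by rw [map_mul, h2, hv1, one_mul]
      rw [e, Valuation.map_sub_eq_of_lt_left _ (by rw [h2β]; exact hlt), h2β]
    refine ⟨β₁, hβ₁, ?_⟩
    rwa [hunit, mul_one] at hpv
  · have hunit : v (β₁ - β₀) = 1 := le_antisymm hm (not_lt.mp hlt)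
    refine ⟨-β₁, by rw [neg_sq]; exact hβ₁, ?_⟩
    have e : -β₁ - β₀ = -(β₁ + β₀) := by ring
    rw [e, Valuation.map_neg]
    rwa [hunit, one_mul] at hpv

end Fermat.Agent.S59lib.StrictW

end
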