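/-
S59lib / StrictW / NodeModel  (helper6) — Project I, block STRICT-W (C3).

A Weierstrass curve `W` over an algebraically closed valued field `(K, v)` of characteristic zero with
integral coefficients, `v 2 = 1`, `v Δ < 1`, `v c₄ = 1` (multiplicative reduction, odd residue
characteristic).  The 2-division cubic has roots `e₁ ≡ e₂ ≢ e₃`, and the change of variables
`x = x' + e₁`, `y = y' - (a₁ x + a₃)/2` identifies `W` with the node model
`legW a b : y'² = x'³ + a x'² + b x'`, `a = (e₁ - e₂) + (e₁ - e₃)`, `b = (e₁ - e₂)(e₁ - e₃)`, of `S05lib/Node`.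
-/
import Fermat.Agent.S05lib.Node
import Fermat.Agent.S05lib.NodeTorsion
import Fermat.Agent.S51lib.Transfer

set_option autoImplicit false
set_option linter.unusedSectionVars false

noncomputable section

namespace Fermat.Agent.S59lib.StrictW

open WeierstrassCurve Polynomial Fermat.Agent.S05lib Fermat.Agent.S51lib

variable {K : Type*} [Field K] [CharZero K] {Γ₀ : Type*} [LinearOrderedCommGroupWithZero Γ₀]
  (v : Valuation K Γ₀) (W : WeierstrassCurve K)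

/-- the roots of the 2-division cubic of a curve with multiplicative reduction -/
structure NodeRoots (e₁ e₂ e₃ : K) : Prop where
  V1 : W.b₂ = -4 * (e₁ + e₂ + e₃)
  V2 : W.b₄ = 2 * (e₁ * e₂ + e₁ * e₃ + e₂ * e₃)
  V3 : W.b₆ = -4 * (e₁ * e₂ * e₃)
  h12 : v (e₁ - e₂) < 1
  h13 : v (e₁ - e₃) = 1
  h23 : v (e₂ - e₃) = 1
  i1 : v e₁ ≤ 1

variable {v W}

/-- a root of a monic cubic with integral coefficients is integral -/
theorem val_root_le_one {a b c x : K} (ha : v a ≤ 1) (hb : v b ≤ 1) (hc : v c ≤ 1)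
    (h : x ^ 3 + a * x ^ 2 + b * x + c = 0) : v x ≤ 1 := by
  by_contra hx
  push Not at hx
  have hx0 : 0 < v x := lt_trans zero_lt_one hx
  have e : x ^ 3 = -(a * x ^ 2 + b * x + c) := by linear_combination h
  have h3 : v (x ^ 3) = v x ^ 3 := map_pow _ _ _
  have h1 : v x < v x ^ 3 := by
    calc v x = v x * 1 := (mul_one _).symm
      _ < v x * v x ^ 2 := (mul_lt_mul_iff_right₀ hx0).mpr (one_lt_pow₀ hx two_ne_zero)
      _ = v x ^ 3 := (pow_succ' (v x) 2).symm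
  have h2 : v x ^ 2 < v x ^ 3 := by
    calc v x ^ 2 = v x ^ 2 * 1 := (mul_one _).symm
      _ < v x ^ 2 * v x := (mul_lt_mul_iff_right₀ (pow_pos hx0 2)).mpr hx
      _ = v x ^ 3 := (pow_succ (v x) 2).symm
  have hlt : v (a * x ^ 2 + b * x + c) < v x ^ 3 := by
    apply Valuation.map_add_lt _ (Valuation.map_add_lt _ ?_ ?_) ?_
    · rw [map_mul, map_pow]
      calc v a * v x ^ 2 ≤ 1 * v x ^ 2 := mul_le_mul' ha le_rfl
        _ = v x ^ 2 := one_mul _
        _ < v x ^ 3 := h2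
    · rw [map_mul]
      calc v b * v x ≤ 1 * v x := mul_le_mul' hb le_rfl
        _ = v x := one_mul _
        _ < v x ^ 3 := h1
    · exact lt_of_le_of_lt hc (lt_trans hx h1)
  rw [e, Valuation.map_neg] at h3
  rw [h3] at hlt
  exact lt_irrefl _ hlt

section identities

variable {e₁ e₂ e₃ : K}

theorem Δ_eq_of_vieta (V1 : W.b₂ = -4 * (e₁ + e₂ + e₃))
    (V2 : W.b₄ = 2 * (e₁ * e₂ + e₁ * e₃ + e₂ * e₃)) (V3 : W.b₆ = -4 * (e₁ * e₂ * e₃)) :
    W.Δ = 16 * ((e₁ - e₂) * (e₁ - e₃) * (e₂ - e₃)) ^ 2 := by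
  have hrel := W.b_relation
  rw [V1, V2, V3] at hrel
  have h4 : (4 : K) ≠ 0 := by norm_num
  apply mul_left_cancel₀ h4
  rw [WeierstrassCurve.Δ, V1, V2, V3]
  linear_combination (-(-4 * (e₁ + e₂ + e₃)) ^ 2) * hrel

theorem c₄_eq_of_vieta (V1 : W.b₂ = -4 * (e₁ + e₂ + e₃))
    (V2 : W.b₄ = 2 * (e₁ * e₂ + e₁ * e₃ + e₂ * e₃)) :
    W.c₄ = 8 * ((e₁ - e₂) ^ 2 + (e₁ - e₃) ^ 2 + (e₂ - e₃) ^ 2) := by
  rw [WeierstrassCurve.c₄, V1, V2]
  ring

end identities

/-- valuation of a natural number which is a power of two -/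
theorem val_four (h2 : v (2 : K) = 1) : v (4 : K) = 1 := by
  have : (4 : K) = 2 * 2 := by norm_num
  rw [this, map_mul, h2, one_mul]

theorem val_eight (h2 : v (2 : K) = 1) : v (8 : K) = 1 := by
  have : (8 : K) = 2 * 2 * 2 := by norm_num
  rw [this, map_mul, map_mul, h2, one_mul, one_mul]

theorem val_sixteen (h2 : v (2 : K) = 1) : v (16 : K) = 1 := by
  have : (16 : K) = 2 * 2 * 2 * 2 := by norm_num
  rw [this, map_mul, map_mul, map_mul, h2, one_mul, one_mul, one_mul]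

/-- **existence of the roots.** -/
theorem exists_nodeRoots [IsAlgClosed K] (hW : IntegralModel v W.toAffine) (h2 : v (2 : K) = 1)
    (hΔ : v W.Δ < 1) (hc₄ : v W.c₄ = 1) : ∃ e₁ e₂ e₃ : K, NodeRoots v W e₁ e₂ e₃ := by
  have h4 : (4 : K) ≠ 0 := by norm_num
  have hv4 := val_four h2
  -- integrality of the `b`'s
  have ha₁ : v W.a₁ ≤ 1 := hW.a₁
  have ha₂ : v W.a₂ ≤ 1 := hW.a₂
  have ha₃ : v W.a₃ ≤ 1 := hW.a₃
  have ha₄ : v W.a₄ ≤ 1 := hW.a₄
  have ha₆ : v W.a₆ ≤ 1 := hW.a₆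
  have hb₂ : v W.b₂ ≤ 1 := by
    rw [WeierstrassCurve.b₂]
    refine Valuation.map_add_le _ ?_ ?_
    · rw [map_pow]; exact pow_le_one₀ zero_le ha₁
    · rw [map_mul, hv4, one_mul]; exact ha₂
  have hb₄ : v W.b₄ ≤ 1 := by
    rw [WeierstrassCurve.b₄]
    refine Valuation.map_add_le _ ?_ ?_
    · rw [map_mul, h2, one_mul]; exact ha₄
    · rw [map_mul]; exact mul_le_one' ha₁ ha₃
  have hb₆ : v W.b₆ ≤ 1 := by
    rw [WeierstrassCurve.b₆]
    refine Valuation.map_add_le _ ?_ ?_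
    · rw [map_pow]; exact pow_le_one₀ zero_le ha₃
    · rw [map_mul, hv4, one_mul]; exact ha₆
  -- the roots
  obtain ⟨r₁, hr₁⟩ := IsAlgClosed.exists_root
    (C (4 : K) * X ^ 3 + C W.b₂ * X ^ 2 + C (2 * W.b₄) * X + C W.b₆)
    (by rw [degree_cubic h4]; norm_num)
  obtain ⟨r₂, hr₂⟩ := IsAlgClosed.exists_root
    (C (4 : K) * X ^ 2 + C (4 * r₁ + W.b₂) * X + C (4 * r₁ ^ 2 + W.b₂ * r₁ + 2 * W.b₄))
    (by rw [degree_quadratic h4]; norm_num)
  simp only [IsRoot.def, eval_add, eval_mul, eval_C, eval_pow, eval_X] at hr₁ hr₂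
  set r₃ : K := -(W.b₂ / 4) - r₁ - r₂ with hr₃
  have V1 : W.b₂ = -4 * (r₁ + r₂ + r₃) := by rw [hr₃]; ring
  have V2 : W.b₄ = 2 * (r₁ * r₂ + r₁ * r₃ + r₂ * r₃) := by
    rw [hr₃]; linear_combination (1 / 2 : K) * hr₂
  have V3 : W.b₆ = -4 * (r₁ * r₂ * r₃) := by
    rw [hr₃]; linear_combination hr₁ - r₁ * hr₂
  -- integrality of the roots
  have hroot : ∀ x : K, (x - r₁) * (x - r₂) * (x - r₃) =
      x ^ 3 + (W.b₂ / 4) * x ^ 2 + (W.b₄ / 2) * x + W.b₆ / 4 := by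
    intro x; rw [V1, V2, V3]; ring
  have hint : ∀ x : K, (x - r₁) * (x - r₂) * (x - r₃) = 0 → v x ≤ 1 := by
    intro x hx
    rw [hroot] at hx
    refine val_root_le_one ?_ ?_ ?_ hx
    · rw [map_div₀, hv4, div_one]; exact hb₂
    · rw [map_div₀, h2, div_one]; exact hb₄
    · rw [map_div₀, hv4, div_one]; exact hb₆
  have i1 : v r₁ ≤ 1 := hint r₁ (by ring)
  have i2 : v r₂ ≤ 1 := hint r₂ (by ring)
  have i3 : v r₃ ≤ 1 := hint r₃ (by ring)
  have d12 : v (r₁ - r₂) ≤ 1 := Valuation.map_sub_le _ i1 i2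
  have d13 : v (r₁ - r₃) ≤ 1 := Valuation.map_sub_le _ i1 i3
  have d23 : v (r₂ - r₃) ≤ 1 := Valuation.map_sub_le _ i2 i3
  -- the discriminant and `c₄`
  have hΔ' := Δ_eq_of_vieta V1 V2 V3
  have hc' := c₄_eq_of_vieta V1 V2
  rw [hΔ', map_mul, val_sixteen h2, one_mul, map_pow, map_mul, map_mul] at hΔ
  rw [hc', map_mul, val_eight h2, one_mul] at hc₄
  have hprod : v (r₁ - r₂) * v (r₁ - r₃) * v (r₂ - r₃) < 1 := by
    by_contra h
    push Not at h
    exact absurd hΔ (not_lt.mpr (one_le_pow₀ h))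
  -- not all three differences are small
  have hnot3 : ¬ (v (r₁ - r₂) < 1 ∧ v (r₁ - r₃) < 1 ∧ v (r₂ - r₃) < 1) := by
    rintro ⟨h1, h2', h3⟩
    have : v ((r₁ - r₂) ^ 2 + (r₁ - r₃) ^ 2 + (r₂ - r₃) ^ 2) < 1 := by
      refine Valuation.map_add_lt _ (Valuation.map_add_lt _ ?_ ?_) ?_
      · rw [map_pow]; exact pow_lt_one₀ zero_le h1 two_ne_zero
      · rw [map_pow]; exact pow_lt_one₀ zero_le h2' two_ne_zero
      · rw [map_pow]; exact pow_lt_one₀ zero_le h3 two_ne_zero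
    rw [hc₄] at this
    exact lt_irrefl _ this
  -- two small differences force the third
  have h_12_13 : v (r₁ - r₂) < 1 → v (r₁ - r₃) < 1 → False := by
    intro h1 h2'
    apply hnot3
    refine ⟨h1, h2', ?_⟩
    have e : r₂ - r₃ = (r₁ - r₃) - (r₁ - r₂) := by ring
    rw [e]; exact Valuation.map_sub_lt _ h2' h1
  have h_12_23 : v (r₁ - r₂) < 1 → v (r₂ - r₃) < 1 → False := by
    intro h1 h3
    apply hnot3
    refine ⟨h1, ?_, h3⟩
    have e : r₁ - r₃ = (r₁ - r₂) + (r₂ - r₃) := by ring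
    rw [e]; exact Valuation.map_add_lt _ h1 h3
  have h_13_23 : v (r₁ - r₃) < 1 → v (r₂ - r₃) < 1 → False := by
    intro h2' h3
    apply hnot3
    refine ⟨?_, h2', h3⟩
    have e : r₁ - r₂ = (r₁ - r₃) - (r₂ - r₃) := by ring
    rw [e]; exact Valuation.map_sub_lt _ h2' h3
  -- one of them is small
  have hsome : v (r₁ - r₂) < 1 ∨ v (r₁ - r₃) < 1 ∨ v (r₂ - r₃) < 1 := by
    by_contra h
    push Not at h
    obtain ⟨g1, g2, g3⟩ := h
    have : (1 : Γ₀) ≤ v (r₁ - r₂) * v (r₁ - r₃) * v (r₂ - r₃) := by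
      calc (1 : Γ₀) = 1 * 1 * 1 := by simp
        _ ≤ v (r₁ - r₂) * v (r₁ - r₃) * v (r₂ - r₃) := mul_le_mul' (mul_le_mul' g1 g2) g3
    exact absurd hprod (not_lt.mpr this)
  have heq1 : ∀ {x : K}, v x ≤ 1 → ¬ v x < 1 → v x = 1 := fun h h' =>
    le_antisymm h (not_lt.mp h')
  rcases hsome with h | h | h
  · exact ⟨r₁, r₂, r₃, V1, V2, V3, h, heq1 d13 (fun h' => h_12_13 h h'),
      heq1 d23 (fun h' => h_12_23 h h'), i1⟩
  · refine ⟨r₁, r₃, r₂, by rw [V1]; ring, by rw [V2]; ring, by rw [V3]; ring, h,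
      heq1 d12 (fun h' => h_12_13 h' h), ?_, i1⟩
    have e : r₃ - r₂ = -(r₂ - r₃) := by ring
    rw [e, Valuation.map_neg]
    exact heq1 d23 (fun h' => h_13_23 h h')
  · refine ⟨r₂, r₃, r₁, by rw [V1]; ring, by rw [V2]; ring, by rw [V3]; ring, h, ?_, ?_, i2⟩
    · have e : r₂ - r₁ = -(r₁ - r₂) := by ring
      rw [e, Valuation.map_neg]
      exact heq1 d12 (fun h' => h_12_23 h' h)
    · have e : r₃ - r₁ = -(r₁ - r₃) := by ring
      rw [e, Valuation.map_neg]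
      exact heq1 d13 (fun h' => h_13_23 h' h)

/-! ### the node model -/

/-- the coefficient `a` of the node model -/
def nodeA (e₁ e₂ e₃ : K) : K := (e₁ - e₂) + (e₁ - e₃)

/-- the coefficient `b` of the node model -/
def nodeB (e₁ e₂ e₃ : K) : K := (e₁ - e₂) * (e₁ - e₃)

/-- the change of variables to the node model -/
def nodeVC (W : WeierstrassCurve K) (e₁ : K) : VariableChange K :=
  ⟨1, e₁, -(W.a₁ / 2), -((W.a₁ * e₁ + W.a₃) / 2)⟩

namespace NodeRoots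

variable {e₁ e₂ e₃ : K} (hR : NodeRoots v W e₁ e₂ e₃)
include hR

theorem val_nodeA : v (nodeA e₁ e₂ e₃) = 1 := by
  rw [nodeA, Valuation.map_add_eq_of_lt_right, hR.h13]
  rw [hR.h13]; exact hR.h12

theorem val_nodeB : v (nodeB e₁ e₂ e₃) = v (e₁ - e₂) := by
  rw [nodeB, map_mul, hR.h13, mul_one]

theorem val_nodeB_lt : v (nodeB e₁ e₂ e₃) < 1 := by
  rw [hR.val_nodeB]; exact hR.h12

theorem nodeB_ne_zero (hΔ0 : W.Δ ≠ 0) : nodeB e₁ e₂ e₃ ≠ 0 := by
  intro h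
  apply hΔ0
  rw [Δ_eq_of_vieta hR.V1 hR.V2 hR.V3]
  rw [nodeB] at h
  rw [h, zero_mul, zero_pow two_ne_zero, mul_zero]

theorem i2 : v e₂ ≤ 1 := by
  have e : e₂ = e₁ - (e₁ - e₂) := by ring
  rw [e]
  exact Valuation.map_sub_le _ hR.i1 hR.h12.le

theorem i3 : v e₃ ≤ 1 := by
  have e : e₃ = e₁ - (e₁ - e₃) := by ring
  rw [e]
  exact Valuation.map_sub_le _ hR.i1 hR.h13.le

theorem nodeData (h2 : v (2 : K) = 1) (hΔ0 : W.Δ ≠ 0) {β : K} (hβ : β ^ 2 = nodeA e₁ e₂ e₃) :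
    NodeData v (nodeA e₁ e₂ e₃) (nodeB e₁ e₂ e₃) β where
  hb := hR.val_nodeB_lt
  hb0 := hR.nodeB_ne_zero hΔ0
  hβ := hβ
  hβ1 := by
    have h1 : v β ^ 2 = 1 := by rw [← map_pow, hβ, hR.val_nodeA]
    exact (pow_eq_one_iff_of_nonneg zero_le two_ne_zero).mp h1
  h2 := h2

theorem nodeVC_smul : nodeVC W e₁ • W = legW (nodeA e₁ e₂ e₃) (nodeB e₁ e₂ e₃) := by
  have hb₂ := hR.V1
  have hb₄ := hR.V2
  have hb₆ := hR.V3
  rw [WeierstrassCurve.b₂] at hb₂
  rw [WeierstrassCurve.b₄] at hb₄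
  rw [WeierstrassCurve.b₆] at hb₆
  ext
  · rw [variableChange_a₁]
    simp only [nodeVC, inv_one, Units.val_one, one_mul, legW_a₁]
    ring
  · rw [variableChange_a₂]
    simp only [nodeVC, inv_one, Units.val_one, one_pow, one_mul, legW_a₂, nodeA]
    linear_combination (1 / 4 : K) * hb₂
  · rw [variableChange_a₃]
    simp only [nodeVC, inv_one, Units.val_one, one_pow, one_mul, legW_a₃]
    ring
  · rw [variableChange_a₄]
    simp only [nodeVC, inv_one, Units.val_one, one_pow, one_mul, legW_a₄, nodeB]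
    linear_combination (1 / 2 : K) * hb₄ + (e₁ / 2) * hb₂
  · rw [variableChange_a₆]
    simp only [nodeVC, inv_one, Units.val_one, one_pow, one_mul, legW_a₆]
    linear_combination (1 / 4 : K) * hb₆ + (e₁ / 2) * hb₄ + (e₁ ^ 2 / 4) * hb₂

end NodeRoots

section transfer

open WeierstrassCurve.Affine

variable [DecidableEq K] {e₁ e₂ e₃ : K} (hR : NodeRoots v W e₁ e₂ e₃)

/-- the isomorphism from the node model -/
def NodeRoots.tau : (legW (nodeA e₁ e₂ e₃) (nodeB e₁ e₂ e₃)).toAffine.Point ≃+ W.toAffine.Point :=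
  vcEquiv' W (nodeVC W e₁) hR.nodeVC_smul

theorem NodeRoots.tau_some {x y : K}
    (h : (legW (nodeA e₁ e₂ e₃) (nodeB e₁ e₂ e₃)).toAffine.Nonsingular x y) :
    ∃ h' : W.toAffine.Nonsingular (x + e₁) (y - W.a₁ / 2 * x - (W.a₁ * e₁ + W.a₃) / 2),
      hR.tau (Point.some x y h) = Point.some _ _ h' := by
  obtain ⟨h', e⟩ := vcEquiv'_some W (nodeVC W e₁) hR.nodeVC_smul h
  have ex : vcX (nodeVC W e₁) x = x + e₁ := by
    simp only [vcX, nodeVC, Units.val_one, one_pow, one_mul]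
  have ey : vcY (nodeVC W e₁) x y = y - W.a₁ / 2 * x - (W.a₁ * e₁ + W.a₃) / 2 := by
    simp only [vcY, nodeVC, Units.val_one, one_pow, one_mul]
    ring
  rw [ex, ey] at h'
  refine ⟨h', ?_⟩
  rw [NodeRoots.tau, e]
  simp only [ex, ey]

theorem NodeRoots.tau_zero : hR.tau 0 = 0 := map_zero _

/-- the kernels of reduction correspond -/
theorem NodeRoots.inE1_tau_iff (P : (legW (nodeA e₁ e₂ e₃) (nodeB e₁ e₂ e₃)).toAffine.Point) :
    InE1 v W.toAffine (hR.tau P) ↔ InE1 v (legW (nodeA e₁ e₂ e₃) (nodeB e₁ e₂ e₃)).toAffine P := by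
  rcases P with _ | ⟨x, y, h⟩
  · have : hR.tau Point.zero = 0 := hR.tau_zero
    rw [this]
    exact ⟨fun _ => trivial, fun _ => trivial⟩
  · obtain ⟨h', e⟩ := hR.tau_some h
    rw [e, inE1_some, inE1_some]
    constructor
    · intro hx
      by_contra hx'
      push Not at hx'
      exact absurd hx (not_lt.mpr (Valuation.map_add_le _ hx' hR.i1))
    · intro hx
      rw [Valuation.map_add_eq_of_lt_left _ (lt_of_le_of_lt hR.i1 hx)]
      exact hx

end transfer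

end Fermat.Agent.S59lib.StrictW

end
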