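/-
S59lib / StrictW / CompW  (helper6) — Project I, block STRICT-W (C3).

The component function of the node model transported to the original curve `W`, in coordinates invariant
under valuation-preserving automorphisms `σ` fixing the coefficients of `W`; consequence: for such a `σ`
(acting on points through `T`), `T Q - s Q` has non-singular reduction for every point `Q`, where
`s = ±1` is the action of `σ` on the slope `β₀` of the tangents at the node.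
-/
import Fermat.Agent.S59lib.StrictW.NodeModel
import Fermat.Agent.S59lib.StrictW.CompInv

set_option autoImplicit false
set_option linter.unusedSectionVars false

noncomputable section

namespace Fermat.Agent.S59lib.StrictW

open WeierstrassCurve WeierstrassCurve.Affine Fermat.Agent.S05lib Fermat.Agent.S51lib

variable {K : Type*} [Field K] [CharZero K] {Γ₀ : Type*} [LinearOrderedCommGroupWithZero Γ₀]
  {v : Valuation K Γ₀} {W : WeierstrassCurve K} {e₁ e₂ e₃ : K}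

/-- **the far root is fixed** by a valuation-preserving endomorphism fixing the `b`-invariants. -/
theorem NodeRoots.far_root_fixed (hR : NodeRoots v W e₁ e₂ e₃) (h2 : v (2 : K) = 1) (σ : K →+* K)
    (hσv : ∀ x, v (σ x) = v x) (hb₂ : σ W.b₂ = W.b₂) (hb₄ : σ W.b₄ = W.b₄) (hb₆ : σ W.b₆ = W.b₆) :
    σ e₃ = e₃ := by
  have hv4 := val_four h2
  have h4 : (4 : K) ≠ 0 := by norm_num
  -- the cubic
  have hg : ∀ z : K, 4 * z ^ 3 + W.b₂ * z ^ 2 + 2 * W.b₄ * z + W.b₆ =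
      4 * ((z - e₁) * (z - e₂) * (z - e₃)) := by
    intro z; rw [hR.V1, hR.V2, hR.V3]; ring
  have hD : ∀ z : K, 12 * z ^ 2 + 2 * W.b₂ * z + 2 * W.b₄ =
      4 * ((z - e₁) * (z - e₂) + (z - e₁) * (z - e₃) + (z - e₂) * (z - e₃)) := by
    intro z; rw [hR.V1, hR.V2]; ring
  have hroot : 4 * (σ e₃) ^ 3 + W.b₂ * (σ e₃) ^ 2 + 2 * W.b₄ * (σ e₃) + W.b₆ = 0 := by
    have h0 : 4 * e₃ ^ 3 + W.b₂ * e₃ ^ 2 + 2 * W.b₄ * e₃ + W.b₆ = 0 := by rw [hg]; ring
    have := congrArg σ h0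
    simpa only [map_add, map_mul, map_pow, map_ofNat, map_zero, hb₂, hb₄, hb₆] using this
  have hDσ : v (12 * (σ e₃) ^ 2 + 2 * W.b₂ * (σ e₃) + 2 * W.b₄) = 1 := by
    have e : 12 * (σ e₃) ^ 2 + 2 * W.b₂ * (σ e₃) + 2 * W.b₄ =
        σ (12 * e₃ ^ 2 + 2 * W.b₂ * e₃ + 2 * W.b₄) := by
      simp only [map_add, map_mul, map_pow, map_ofNat, hb₂, hb₄]
    rw [e, hσv, hD]
    have e' : (e₃ - e₁) * (e₃ - e₂) + (e₃ - e₁) * (e₃ - e₃) + (e₃ - e₂) * (e₃ - e₃) =
        (e₁ - e₃) * (e₂ - e₃) := by ring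
    rw [e', map_mul, hv4, map_mul, hR.h13, hR.h23, one_mul, one_mul]
  rw [hg] at hroot
  have h3 : (σ e₃ - e₁) * (σ e₃ - e₂) * (σ e₃ - e₃) = 0 :=
    (mul_eq_zero.mp hroot).resolve_left h4
  rcases mul_eq_zero.mp h3 with h12 | h
  · exfalso
    rcases mul_eq_zero.mp h12 with h | h
    · have e : σ e₃ = e₁ := sub_eq_zero.mp h
      rw [e, hD] at hDσ
      have e' : (e₁ - e₁) * (e₁ - e₂) + (e₁ - e₁) * (e₁ - e₃) + (e₁ - e₂) * (e₁ - e₃) =
          (e₁ - e₂) * (e₁ - e₃) := by ring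
      rw [e', map_mul, hv4, one_mul, map_mul, hR.h13, mul_one] at hDσ
      exact absurd hDσ hR.h12.ne
    · have e : σ e₃ = e₂ := sub_eq_zero.mp h
      rw [e, hD] at hDσ
      have e' : (e₂ - e₁) * (e₂ - e₂) + (e₂ - e₁) * (e₂ - e₃) + (e₂ - e₂) * (e₂ - e₃) =
          -((e₁ - e₂) * (e₂ - e₃)) := by ring
      rw [e', map_mul, hv4, one_mul, Valuation.map_neg, map_mul, hR.h23, mul_one] at hDσ
      exact absurd hDσ hR.h12.ne
  · exact sub_eq_zero.mp h

/-- the invariant centre `(e₁ + e₂) / 2` in terms of the far root -/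
theorem NodeRoots.centre_eq (hR : NodeRoots v W e₁ e₂ e₃) :
    (e₁ + e₂) / 2 = -(W.b₂ / 8) - e₃ / 2 := by
  rw [hR.V1]; ring

variable [DecidableEq K]

/-- the component function on `W` in invariant coordinates -/
def compW (v : Valuation K Γ₀) (W : WeierstrassCurve K) (δ : Γ₀) (e β₀ : K) :
    W.toAffine.Point → Γ₀
  | .zero => 1
  | .some X Y _ => compS v δ β₀ (X - e) (Y + (W.a₁ * X + W.a₃) / 2)

/-- **the component function of the node model is `compW`.** -/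
theorem comp_eq_compW (hR : NodeRoots v W e₁ e₂ e₃) (h2 : v (2 : K) = 1) {β β₀ : K}
    (h : NodeData v (nodeA e₁ e₂ e₃) (nodeB e₁ e₂ e₃) β)
    (hβ₀ : v (β - β₀) ≤ v (nodeB e₁ e₂ e₃))
    (P : (legW (nodeA e₁ e₂ e₃) (nodeB e₁ e₂ e₃)).toAffine.Point) :
    comp v (nodeA e₁ e₂ e₃) (nodeB e₁ e₂ e₃) β P =
      compW v W (v (nodeB e₁ e₂ e₃)) ((e₁ + e₂) / 2) β₀ (hR.tau P) := by
  rcases P with _ | ⟨x, y, hxy⟩
  · have : hR.tau Point.zero = 0 := hR.tau_zero
    rw [this]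
    rfl
  · obtain ⟨h', e⟩ := hR.tau_some hxy
    rw [e]
    show _ = compS v _ β₀ _ _
    have hc : v ((e₁ - e₂) / 2) = v (nodeB e₁ e₂ e₃) := by
      rw [map_div₀, h2, div_one, hR.val_nodeB]
    rw [comp_eq_compS h hc hβ₀ hxy]
    congr 1 <;> ring

/-- **equivariance of `compW`.** -/
theorem compW_map (σ : K →+* K) (hσv : ∀ x, v (σ x) = v x) {δ : Γ₀} {e β₀ β₀' : K}
    (hσe : σ e = e) (ha₁ : σ W.a₁ = W.a₁) (ha₃ : σ W.a₃ = W.a₃) (hβ : σ β₀' = β₀) {X Y : K}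
    (h : W.toAffine.Nonsingular X Y) (h' : W.toAffine.Nonsingular (σ X) (σ Y)) :
    compW v W δ e β₀ (Point.some (σ X) (σ Y) h') = compW v W δ e β₀' (Point.some X Y h) := by
  show compS v δ β₀ _ _ = compS v δ β₀' _ _
  have e1 : σ X - e = σ (X - e) := by rw [map_sub, hσe]
  have e2 : σ Y + (W.a₁ * σ X + W.a₃) / 2 = σ (Y + (W.a₁ * X + W.a₃) / 2) := by
    rw [map_add, map_div₀, map_add, map_mul, ha₁, ha₃, map_ofNat]
  rw [e1, e2, compS, compS, hσv]
  have e3 : σ ((Y + (W.a₁ * X + W.a₃) / 2) - β₀' * (X - e)) =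
      σ (Y + (W.a₁ * X + W.a₃) / 2) - β₀ * σ (X - e) := by
    rw [map_sub, map_mul, hβ]
  rw [← e3, hσv]

/-- **the core of the Galois action on the component group.**  `T` is the action on points of a
valuation-preserving endomorphism `σ` of `K` fixing the coefficients of `W`; `β₀ ^ 2 = e - e₃`. -/
theorem isE0_of_galois (hR : NodeRoots v W e₁ e₂ e₃) (h2 : v (2 : K) = 1) (σ : K →+* K)
    (hσv : ∀ x, v (σ x) = v x) (hb₂ : σ W.b₂ = W.b₂) (hb₄ : σ W.b₄ = W.b₄) (hb₆ : σ W.b₆ = W.b₆)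
    (ha₁ : σ W.a₁ = W.a₁) (ha₃ : σ W.a₃ = W.a₃)
    (T : W.toAffine.Point →+ W.toAffine.Point)
    (hT : ∀ (X Y : K) (h : W.toAffine.Nonsingular X Y),
      ∃ h' : W.toAffine.Nonsingular (σ X) (σ Y), T (Point.some X Y h) = Point.some (σ X) (σ Y) h')
    {β β₀ : K} (h : NodeData v (nodeA e₁ e₂ e₃) (nodeB e₁ e₂ e₃) β)
    (hβ₀ : v (β - β₀) ≤ v (nodeB e₁ e₂ e₃)) (Q : W.toAffine.Point) :
    (σ β₀ = β₀ → IsE0 v (nodeA e₁ e₂ e₃) (nodeB e₁ e₂ e₃) (hR.tau.symm (T Q - Q))) ∧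
    (σ β₀ = -β₀ → IsE0 v (nodeA e₁ e₂ e₃) (nodeB e₁ e₂ e₃) (hR.tau.symm (T Q + Q))) := by
  have hb0 := h.hb0
  have hσe₃ := hR.far_root_fixed h2 σ hσv hb₂ hb₄ hb₆
  have hσe : σ ((e₁ + e₂) / 2) = (e₁ + e₂) / 2 := by
    rw [hR.centre_eq, map_sub, map_neg, map_div₀, map_div₀, hb₂, hσe₃, map_ofNat, map_ofNat]
  set a := nodeA e₁ e₂ e₃ with ha
  set b := nodeB e₁ e₂ e₃ with hb
  set e := (e₁ + e₂) / 2 with he
  -- equivariance on `compW`
  have hequi : ∀ (β₀' : K), σ β₀' = β₀ →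
      compW v W (v b) e β₀ (T Q) = compW v W (v b) e β₀' Q := by
    intro β₀' hβ'
    rcases Q with _ | ⟨X, Y, hXY⟩
    · have : (Point.zero : W.toAffine.Point) = 0 := rfl
      rw [this, map_zero]
      rfl
    · obtain ⟨h', eT⟩ := hT X Y hXY
      rw [eT]
      exact compW_map σ hσv hσe ha₁ ha₃ hβ' hXY h'
  set P₁ := hR.tau.symm (T Q) with hP₁
  set P₂ := hR.tau.symm Q with hP₂
  have hc1 : comp v a b β P₁ = compW v W (v b) e β₀ (T Q) := by
    rw [comp_eq_compW hR h2 h hβ₀ P₁, hP₁, AddEquiv.apply_symm_apply]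
  constructor
  · intro hfix
    have hc2 : comp v a b β P₂ = compW v W (v b) e β₀ Q := by
      rw [comp_eq_compW hR h2 h hβ₀ P₂, hP₂, AddEquiv.apply_symm_apply]
    have heq : comp v a b β P₁ = comp v a b β P₂ := by rw [hc1, hc2, hequi β₀ hfix]
    have e1 : hR.tau.symm (T Q - Q) = P₁ + -P₂ := by
      rw [map_sub, sub_eq_add_neg]
    rw [e1]
    apply h.isE0_of_cong_one
    refine (h.comp_add P₁ (-P₂)).trans hb0 ?_
    rw [heq, mul_comm]
    exact comp_neg_mul h P₂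
  · intro hneg
    have hneg' : σ (-β₀) = β₀ := by rw [map_neg, hneg, neg_neg]
    have hβ₀' : v (-β - -β₀) ≤ v b := by
      have e' : -β - -β₀ = -(β - β₀) := by ring
      rw [e', Valuation.map_neg]; exact hβ₀
    have hc2 : comp v a b (-β) P₂ = compW v W (v b) e (-β₀) Q := by
      rw [comp_eq_compW hR h2 (nodeData_neg h) hβ₀' P₂, hP₂, AddEquiv.apply_symm_apply]
    have heq : comp v a b β P₁ = comp v a b (-β) P₂ := by rw [hc1, hc2, hequi (-β₀) hneg']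
    have e1 : hR.tau.symm (T Q + Q) = P₁ + P₂ := by rw [map_add]
    rw [e1]
    apply h.isE0_of_cong_one
    refine (h.comp_add P₁ P₂).trans hb0 ?_
    rw [heq]
    exact comp_neg_beta_mul h P₂

end Fermat.Agent.S59lib.StrictW

end
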