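/-
S59lib / StrictW / E0Tors  (helper6) — Project I, block STRICT-W (C3).

On the node model `y² = x³ + a x² + b x` over a valued field of residue characteristic `p`: a point of
`p`-power order with non-singular reduction lies in the kernel of reduction (`E₀ / E₁ ≅ k̄ˣ` has no
`p`-torsion), via the branch ratio `tf` of `S44lib/Q3/TFun` (multiplicative on `E₀` modulo `b`).
-/
import Fermat.Agent.S44lib.Q3.TFun

set_option autoImplicit false
set_option linter.unusedSectionVars false

namespace Fermat.Agent.S59lib.StrictW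

open WeierstrassCurve WeierstrassCurve.Affine Fermat.Agent.S05lib Fermat.Agent.S44lib.Q3

variable {K : Type*} [Field K] [DecidableEq K] {Γ₀ : Type*} [LinearOrderedCommGroupWithZero Γ₀]
  {v : Valuation K Γ₀} {a b β : K}

/-- in residue characteristic `p`, `u ^ (p ^ k) ≡ 1` implies `u ≡ 1`. -/
theorem val_sub_one_lt_of_pow {p : ℕ} (hp : p.Prime) (hpv : v (p : K) < 1) {u : K} (hu : v u ≤ 1)
    (k : ℕ) (h : v (u ^ p ^ k - 1) < 1) : v (u - 1) < 1 := by
  classical
  by_contra hcon
  have hw1 : v (u - 1) ≤ 1 := Valuation.map_sub_le _ hu (by rw [map_one])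
  have hw : v (u - 1) = 1 := le_antisymm hw1 (not_lt.mp hcon)
  obtain ⟨r, hr⟩ : ∃ r : K, v r ≤ 1 ∧
      ((u - 1) + 1) ^ p ^ k = (u - 1) ^ p ^ k + 1 ^ p ^ k + (p : K) * (u - 1) * 1 * r := by
    refine ⟨_, ?_, add_pow_prime_pow_eq hp (u - 1) 1 k⟩
    apply Valuation.map_sum_le
    intro i _
    rw [map_mul, map_mul, map_pow, map_pow, map_one, one_pow, mul_one]
    refine mul_le_one' (pow_le_one₀ zero_le hw1) ?_
    exact Fermat.Agent.S05lib.val_natCast_le_one _
  obtain ⟨hr1, hr2⟩ := hr
  rw [sub_add_cancel, one_pow, mul_one] at hr2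
  have e : u ^ p ^ k - 1 = (u - 1) ^ p ^ k + (p : K) * (u - 1) * r := by rw [hr2]; ring
  have h1 : v ((p : K) * (u - 1) * r) < 1 := by
    rw [map_mul, map_mul, hw, mul_one]
    calc v (p : K) * v r ≤ v (p : K) * 1 := mul_le_mul' le_rfl hr1
      _ = v (p : K) := mul_one _
      _ < 1 := hpv
  have h2 : v ((u - 1) ^ p ^ k) = 1 := by rw [map_pow, hw, one_pow]
  rw [e, Valuation.map_add_eq_of_lt_left _ (by rw [h2]; exact h1), h2] at h
  exact lt_irrefl _ h

/-- a point of `E₀` whose branch ratio is `≡ 1` lies in the kernel of reduction. -/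
theorem inE1_of_tf_near (h : NodeData v a b β) {S : (legW a b).toAffine.Point}
    (hS : IsE0 v a b S) (ht : v (tf a b β S - 1) < 1) : InE1 v (legW a b).toAffine S := by
  rcases S with _ | ⟨x, y, hxy⟩
  · exact trivial
  · have hx : 1 ≤ v x := hS
    rw [inE1_some]
    by_contra hx'
    have hx1 : v x = 1 := le_antisymm (not_lt.mp hx') hx
    have heq := (leg_equation_iff a b x y).mp hxy.1
    obtain ⟨e1, e2⟩ := v_branch_eq h heq hx
    have n : y + β * x ≠ 0 := (Valuation.ne_zero_iff v).mp e2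
    have e : (y - β * x) / (y + β * x) - 1 = -(2 * β * x) / (y + β * x) := by
      field_simp
      ring
    rw [tf_some, e, map_div₀, Valuation.map_neg, h.v2β, hx1] at ht
    have hden : 1 < v (y + β * x) := by
      rw [div_lt_one₀ (zero_lt_iff.mpr e2)] at ht
      exact ht
    have hβx : v (β * x) = 1 := by rw [map_mul, h.hβ1, hx1, one_mul]
    have hy : 1 < v y := by
      by_contra hy
      push Not at hy
      exact absurd hden (not_lt.mpr (Valuation.map_add_le _ hy hβx.le))
    have hrhs : v (x ^ 3 + a * x ^ 2 + b * x) ≤ 1 := by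
      refine Valuation.map_add_le _ (Valuation.map_add_le _ ?_ ?_) ?_
      · rw [map_pow, hx1, one_pow]
      · rw [map_mul, map_pow, hx1, one_pow, mul_one, h.va]
      · rw [map_mul, hx1, mul_one]; exact h.hb.le
    rw [← heq, map_pow] at hrhs
    exact absurd (one_lt_pow₀ hy two_ne_zero) (not_lt.mpr hrhs)

/-- **`E₀[p^∞] ⊆ E₁`** on the node model. -/
theorem inE1_of_E0_tors (h : NodeData v a b β) {p : ℕ} (hp : p.Prime) (hpv : v (p : K) < 1)
    {S : (legW a b).toAffine.Point} (hS : IsE0 v a b S) (k : ℕ) (hk : p ^ k • S = 0) :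
    InE1 v (legW a b).toAffine S := by
  obtain ⟨-, hpow⟩ := tf_nsmul_E0 (β := β) h hS (p ^ k)
  rw [hk, tf_zero] at hpow
  have h1 : v (tf a b β S ^ p ^ k - 1) < 1 := by
    have e : tf a b β S ^ p ^ k - 1 = -(1 - tf a b β S ^ p ^ k) := by ring
    rw [e, Valuation.map_neg]
    exact lt_of_le_of_lt hpow h.hb
  exact inE1_of_tf_near h hS
    (val_sub_one_lt_of_pow hp hpv (v_tf_of_E0 h hS).le k h1)

end Fermat.Agent.S59lib.StrictW
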