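/-
S59lib / StrictW / Groups  (helper6) — Project I, block STRICT-W (C3).

Abstract group theory: a `p`-divisible subgroup `H` of an abelian group `G` with `#G[p] = p²`, containing
some but not all of `G[p]`, has `H[p^k]` cyclic of order `p^k` with compatible generators.
-/
import Mathlib

set_option autoImplicit false

namespace Fermat.Agent.S59lib.StrictW

variable {G : Type*} [AddCommGroup G]

/-- the `p`-torsion subgroup -/
def torsP (G : Type*) [AddCommGroup G] (p : ℕ) : AddSubgroup G :=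
  (nsmulAddMonoidHom (α := G) p).ker

theorem mem_torsP {p : ℕ} {P : G} : P ∈ torsP G p ↔ p • P = 0 := by
  rw [torsP, AddMonoidHom.mem_ker, nsmulAddMonoidHom_apply]

/-- **the `p`-torsion of `H` is generated by any of its non-zero elements**, when it is not all of
`G[p]` and `#G[p] = p²`. -/
theorem torsP_inf_eq_zmultiples (p : ℕ) [hp : Fact p.Prime] (H : AddSubgroup G)
    (hcard : Nat.card (torsP G p) = p ^ 2) {g₁ : G} (hg₁H : g₁ ∈ H) (hg₁0 : g₁ ≠ 0)
    (hg₁p : p • g₁ = 0) (hnot : ∃ P : G, p • P = 0 ∧ P ∉ H) :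
    H ⊓ torsP G p = AddSubgroup.zmultiples g₁ := by
  have : Finite (torsP G p) := by
    apply Nat.finite_of_card_ne_zero
    rw [hcard]
    exact pow_ne_zero 2 hp.out.ne_zero
  have hle1 : H ⊓ torsP G p ≤ torsP G p := inf_le_right
  have hle2 : AddSubgroup.zmultiples g₁ ≤ H ⊓ torsP G p := by
    rw [AddSubgroup.zmultiples_le]
    exact ⟨hg₁H, mem_torsP.mpr hg₁p⟩
  have : Finite (H ⊓ torsP G p : AddSubgroup G) :=
    Finite.of_injective (AddSubgroup.inclusion hle1) (AddSubgroup.inclusion_injective hle1)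
  have : Finite (AddSubgroup.zmultiples g₁) :=
    Finite.of_injective (AddSubgroup.inclusion hle2) (AddSubgroup.inclusion_injective hle2)
  have hcZ : Nat.card (AddSubgroup.zmultiples g₁) = p := by
    rw [Nat.card_zmultiples]
    exact addOrderOf_eq_prime hg₁p hg₁0
  have hd1 : Nat.card (H ⊓ torsP G p : AddSubgroup G) ∣ p ^ 2 := by
    rw [← hcard]; exact AddSubgroup.card_dvd_of_le hle1
  have hd2 : p ∣ Nat.card (H ⊓ torsP G p : AddSubgroup G) := by
    have := AddSubgroup.card_dvd_of_le hle2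
    rwa [hcZ] at this
  obtain ⟨j, hj, hcj⟩ := (Nat.dvd_prime_pow hp.out).1 hd1
  have hj1 : j = 1 := by
    interval_cases j
    · exfalso
      rw [pow_zero] at hcj
      rw [hcj] at hd2
      exact hp.out.one_lt.ne' (Nat.dvd_one.mp hd2)
    · rfl
    · exfalso
      have heq : H ⊓ torsP G p = torsP G p :=
        AddSubgroup.eq_of_le_of_card_ge hle1 (by rw [hcj, hcard])
      obtain ⟨P, hP, hPH⟩ := hnot
      have : P ∈ H ⊓ torsP G p := by rw [heq]; exact mem_torsP.mpr hP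
      exact hPH this.1
  subst hj1
  rw [pow_one] at hcj
  exact (AddSubgroup.eq_of_le_of_card_ge hle2 (by rw [hcj, hcZ])).symm

/-- **compatible generators of `H[p^k]`.** -/
theorem exists_compat_gens (p : ℕ) [hp : Fact p.Prime] (H : AddSubgroup G)
    (hcard : Nat.card (torsP G p) = p ^ 2)
    (h1 : ∃ P ∈ H, P ≠ 0 ∧ p • P = 0) (h2 : ∃ P : G, p • P = 0 ∧ P ∉ H)
    (h3 : ∀ R ∈ H, ∃ Q ∈ H, p • Q = R) :
    ∃ g : ℕ → G, g 0 = 0 ∧ g 1 ≠ 0 ∧ (∀ k, p • g (k + 1) = g k) ∧ (∀ k, g k ∈ H) ∧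
      ∀ k, ∀ P ∈ H, p ^ k • P = 0 → ∃ m : ℤ, P = m • g k := by
  obtain ⟨g₁, hg₁H, hg₁0, hg₁p⟩ := h1
  choose! d hdH hd using h3
  -- the sequence `g' k = g (k + 1)`
  obtain ⟨g', hg'0, hg's⟩ : ∃ g' : ℕ → G, g' 0 = g₁ ∧ ∀ k, g' (k + 1) = d (g' k) :=
    ⟨fun k => Nat.rec g₁ (fun _ x => d x) k, rfl, fun _ => rfl⟩
  have hg'H : ∀ k, g' k ∈ H := by
    intro k
    induction k with
    | zero => rw [hg'0]; exact hg₁H
    | succ k ih => rw [hg's]; exact hdH _ ih
  obtain ⟨g, hg0, hgs⟩ : ∃ g : ℕ → G, g 0 = 0 ∧ ∀ k, g (k + 1) = g' k :=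
    ⟨fun k => Nat.casesOn k 0 g', rfl, fun _ => rfl⟩
  have hcompat : ∀ k, p • g (k + 1) = g k := by
    intro k
    cases k with
    | zero => rw [hgs, hg'0, hg0, hg₁p]
    | succ k => rw [hgs, hgs, hg's, hd _ (hg'H k)]
  have hgH : ∀ k, g k ∈ H := by
    intro k
    cases k with
    | zero => rw [hg0]; exact H.zero_mem
    | succ k => rw [hgs]; exact hg'H k
  have hpow : ∀ k, p ^ k • g (k + 1) = g₁ := by
    intro k
    induction k with
    | zero => rw [pow_zero, one_smul, hgs, hg'0]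
    | succ k ih => rw [pow_succ, mul_smul, hcompat, ih]
  have hZ := torsP_inf_eq_zmultiples p H hcard hg₁H hg₁0 hg₁p h2
  refine ⟨g, hg0, by rw [hgs, hg'0]; exact hg₁0, hcompat, hgH, ?_⟩
  intro k
  induction k with
  | zero =>
    intro P _ hP
    rw [pow_zero, one_smul] at hP
    exact ⟨0, by rw [hP, zero_smul]⟩
  | succ k ih =>
    intro P hPH hP
    have hpP : p ^ k • (p • P) = 0 := by rw [← mul_smul, ← pow_succ]; exact hP
    obtain ⟨m, hm⟩ := ih (p • P) (H.nsmul_mem hPH p) hpP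
    have hQH : P - m • g (k + 1) ∈ H := H.sub_mem hPH (H.zsmul_mem (hgH _) m)
    have hQp : p • (P - m • g (k + 1)) = 0 := by
      rw [smul_sub, hm, smul_comm, hcompat, sub_self]
    have hQ : P - m • g (k + 1) ∈ H ⊓ torsP G p := ⟨hQH, mem_torsP.mpr hQp⟩
    rw [hZ, AddSubgroup.mem_zmultiples_iff] at hQ
    obtain ⟨m', hm'⟩ := hQ
    refine ⟨m + m' * (p ^ k : ℕ), ?_⟩
    rw [add_smul, mul_smul, natCast_zsmul, hpow, hm']
    abel

end Fermat.Agent.S59lib.StrictW
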