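/-
S59lib / StrictW / Geom  (helper6) — Project I, block STRICT-W (C3).

**The geometric statement**: `W` an integral model over `ℤ` with multiplicative reduction at
`p ∈ {3, 5}` (`p ∣ Δ`, `p ∤ c₄`), `A` a place of `ℚ̄` over `p`.  There are compatible generators `g k` of
`W[p^k] ∩ E₁` (`p • g (k+1) = g k`, `g 1 ≠ 0`) and, for every `σ` in the decomposition group, a sign
`s = ±1` (`s = 1` on inertia) with `(σ - s) W[p^k] ⊆ ℤ g k`.
-/
import Fermat.Agent.S59lib.StrictW.KerP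
import Fermat.Agent.S59lib.StrictW.Groups
import Fermat.Agent.S59lib.StrictW.CompW
import Fermat.Agent.S59lib.StrictW.E0Tors
import Fermat.Agent.S13lib.ValAut

set_option autoImplicit false
set_option linter.unusedSectionVars false
set_option linter.style.haveILetI false

noncomputable section

namespace Fermat.Agent.S59lib.StrictW

open Fermat.Agent.S13lib Fermat.Agent.S05lib Fermat.Agent.S58lib.Tate
open Fermat.Agent.S59lib.Flat Fermat.Agent.S19lib Fermat.Agent.S41lib.NE WeierstrassCurve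
open WeierstrassCurve.Affine

local notation "Qb" => AlgebraicClosure ℚ
local notation "GQ" => (AlgebraicClosure ℚ ≃ₐ[ℚ] AlgebraicClosure ℚ)

variable (W : WeierstrassCurve ℤ)

theorem WB_Δ_eq : (WB W).Δ = ((W.Δ : ℤ) : Qb) := by
  rw [WB_eq_map, WeierstrassCurve.map_Δ]; rfl

theorem WB_c₄_eq : (WB W).c₄ = ((W.c₄ : ℤ) : Qb) := by
  rw [WB_eq_map, WeierstrassCurve.map_c₄]; rfl

theorem WB_b₂_eq : (WB W).b₂ = ((W.b₂ : ℤ) : Qb) := by
  rw [WB_eq_map, WeierstrassCurve.map_b₂]; rfl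

theorem WB_b₄_eq : (WB W).b₄ = ((W.b₄ : ℤ) : Qb) := by
  rw [WB_eq_map, WeierstrassCurve.map_b₄]; rfl

theorem WB_b₆_eq : (WB W).b₆ = ((W.b₆ : ℤ) : Qb) := by
  rw [WB_eq_map, WeierstrassCurve.map_b₆]; rfl

variable {W}

/-- **STRICT-W, geometric form.** -/
theorem strictW_geom (hΔ : W.Δ ≠ 0) {p : ℕ} [hp : Fact p.Prime] (hp35 : p = 3 ∨ p = 5)
    (hpΔ : (p : ℤ) ∣ W.Δ) (hc₄ : ¬ (p : ℤ) ∣ W.c₄) (A : ValuationSubring Qb)
    (hA : A.LiesOverPrime p) :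
    ∃ g : ℕ → Pts (WQ' W), g 0 = 0 ∧ g 1 ≠ 0 ∧ (∀ k, p • g (k + 1) = g k) ∧
      ∀ σ ∈ DA A, ∃ s : ℤ, (s = 1 ∨ s = -1) ∧ (σ ∈ IA A → s = 1) ∧
        ∀ (k : ℕ) (Q : Pts (WQ' W)), p ^ k • Q = 0 → ∃ m : ℤ, σ • Q - s • Q = m • g k := by
  classical
  have hp2 : p ≠ 2 := by rcases hp35 with rfl | rfl <;> norm_num
  have h2 : A.valuation (2 : Qb) = 1 := val_two_eq_one A hA hp2
  have hW := integralModel_WB W A
  have hΔ0 : (WB W).Δ ≠ 0 := WB_Δ_ne_zero hΔ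
  have hpv : A.valuation ((p : ℕ) : Qb) < 1 := G.val_prime_lt_one hA
  have hvΔ : A.valuation (WB W).Δ < 1 := by
    rw [WB_Δ_eq]
    exact lt_of_le_of_lt (G.val_intCast_le_of_dvd hpΔ) hpv
  have hvc₄ : A.valuation (WB W).c₄ = 1 := by
    rw [WB_c₄_eq]
    exact G.val_intCast_eq_one hp.out hA hc₄
  obtain ⟨e₁, e₂, e₃, hR⟩ := exists_nodeRoots (v := A.valuation) (W := WB W) hW h2 hvΔ hvc₄
  -- the slopes
  have hva₀ : A.valuation ((e₁ + e₂) / 2 - e₃) = 1 := by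
    have e : (e₁ + e₂) / 2 - e₃ = (e₁ - e₃) - (e₁ - e₂) / 2 := by ring
    rw [e, Valuation.map_sub_eq_of_lt_left, hR.h13]
    rw [hR.h13, map_div₀, h2, div_one]
    exact hR.h12
  obtain ⟨β₀, hβ₀⟩ := IsAlgClosed.exists_pow_nat_eq ((e₁ + e₂) / 2 - e₃) (n := 2) (by norm_num)
  have hvβ₀ : A.valuation β₀ = 1 := by
    have h1 : A.valuation β₀ ^ 2 = 1 := by rw [← map_pow, hβ₀, hva₀]
    exact (pow_eq_one_iff_of_nonneg zero_le two_ne_zero).mp h1
  have hδ : A.valuation (nodeA e₁ e₂ e₃ - ((e₁ + e₂) / 2 - e₃)) ≤ A.valuation (nodeB e₁ e₂ e₃) := by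
    have e : nodeA e₁ e₂ e₃ - ((e₁ + e₂) / 2 - e₃) = 3 * ((e₁ - e₂) / 2) := by rw [nodeA]; ring
    rw [e, map_mul, map_div₀, h2, div_one, hR.val_nodeB]
    have h3 : A.valuation (3 : Qb) ≤ 1 := by
      have : (3 : Qb) = ((3 : ℤ) : Qb) := by norm_num
      rw [this]; exact G.val_intCast_le_one _
    calc A.valuation (3 : Qb) * A.valuation (e₁ - e₂) ≤ 1 * A.valuation (e₁ - e₂) :=
          mul_le_mul' h3 le_rfl
      _ = _ := one_mul _
  obtain ⟨β, hβ, hm⟩ := exists_matched_sqrt h2 hβ₀ hvβ₀ hδ hR.val_nodeB_lt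
  have h := hR.nodeData h2 hΔ0 hβ
  -- the generators
  have hcard : Nat.card (torsP (Pts (WQ' W)) p) = p ^ 2 := by
    rw [← card_torsionBy_eq_sq (WB W) hΔ0 p hp.out.two_le]
    refine Nat.card_congr (Equiv.subtypeEquivRight fun P => ?_)
    rw [mem_torsP, Submodule.mem_torsionBy_iff, natCast_zsmul]
  obtain ⟨P₁, hP₁0, hP₁p, hP₁E⟩ := exists_ne_zero_tors_inE1 hΔ hA hp35 hc₄
  obtain ⟨P₂, hP₂p, hP₂E⟩ := exists_tors_not_inE1 hΔ hA hp35 hc₄
  obtain ⟨g, hg0, hg1, hgc, hgH, hgen⟩ := exists_compat_gens p (kerRed hW) hcard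
    ⟨P₁, (mem_kerRed hW).mpr hP₁E, hP₁0, hP₁p⟩ ⟨P₂, hP₂p, fun hh => hP₂E ((mem_kerRed hW).mp hh)⟩
    (fun R hRm => by
      obtain ⟨Q, hQE, hQ⟩ := inE1_divisible hΔ hA hp35 hc₄ R ((mem_kerRed hW).mp hRm)
      exact ⟨Q, (mem_kerRed hW).mpr hQE, hQ⟩)
  refine ⟨g, hg0, hg1, hgc, ?_⟩
  intro σ hσ
  -- `σ` preserves the valuation and the coefficients
  have hσv : ∀ x : Qb, A.valuation (σ.toAlgHom.toRingHom x) = A.valuation x := fun x =>
    val_algEquiv_eq σ (fun y => val_smul_le_one_iff hσ y) x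
  have hfixZ : ∀ n : ℤ, σ.toAlgHom.toRingHom ((n : ℤ) : Qb) = ((n : ℤ) : Qb) := fun n =>
    map_intCast σ n
  have hb₂ : σ.toAlgHom.toRingHom (WB W).b₂ = (WB W).b₂ := by rw [WB_b₂_eq]; exact hfixZ _
  have hb₄ : σ.toAlgHom.toRingHom (WB W).b₄ = (WB W).b₄ := by rw [WB_b₄_eq]; exact hfixZ _
  have hb₆ : σ.toAlgHom.toRingHom (WB W).b₆ = (WB W).b₆ := by rw [WB_b₆_eq]; exact hfixZ _
  have ha₁ : σ.toAlgHom.toRingHom (WB W).a₁ = (WB W).a₁ := by rw [WB_a₁]; exact hfixZ _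
  have ha₃ : σ.toAlgHom.toRingHom (WB W).a₃ = (WB W).a₃ := by rw [WB_a₃]; exact hfixZ _
  set T : (WB W).Point →+ (WB W).Point := DistribSMul.toAddMonoidHom (WB W).Point σ with hTdef
  have hTapp : ∀ Q : (WB W).Point, T Q = σ • Q := fun Q => rfl
  have hT : ∀ (X Y : Qb) (hXY : (WB W).Nonsingular X Y),
      ∃ h' : (WB W).Nonsingular (σ.toAlgHom.toRingHom X) (σ.toAlgHom.toRingHom Y),
        T (Point.some X Y hXY) = Point.some (σ.toAlgHom.toRingHom X) (σ.toAlgHom.toRingHom Y) h' := by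
    intro X Y hXY
    have e : T (Point.some X Y hXY) = Point.map σ.toAlgHom (Point.some X Y hXY) := rfl
    rw [e, Point.map_some]
    exact ⟨_, rfl⟩
  have key := fun Q => isE0_of_galois hR h2 σ.toAlgHom.toRingHom hσv hb₂ hb₄ hb₆ ha₁ ha₃ T hT h hm Q
  -- the far root and the centre are fixed, so `σ β₀ = ± β₀`
  have hσe₃ := hR.far_root_fixed h2 σ.toAlgHom.toRingHom hσv hb₂ hb₄ hb₆
  have hsq : (σ.toAlgHom.toRingHom β₀) ^ 2 = β₀ ^ 2 := by
    rw [← map_pow, hβ₀, hR.centre_eq, map_sub, map_sub, map_neg, map_div₀, map_div₀, hb₂, hσe₃,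
      map_ofNat, map_ofNat]
  -- torsion points of `E₀` on the node model are in `E₁`
  have hfin : ∀ (k : ℕ) (R : (WB W).Point), p ^ k • R = 0 →
      IsE0 A.valuation (nodeA e₁ e₂ e₃) (nodeB e₁ e₂ e₃) (hR.tau.symm R) → ∃ m : ℤ, R = m • g k := by
    intro k R hRk hE0
    have htors : p ^ k • hR.tau.symm R = 0 := by rw [← map_nsmul, hRk, map_zero]
    have hE1 := inE1_of_E0_tors h hp.out hpv hE0 k htors
    rw [← hR.inE1_tau_iff, AddEquiv.apply_symm_apply] at hE1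
    exact hgen k R ((mem_kerRed hW).mpr hE1) hRk
  rcases sq_eq_sq_iff_eq_or_eq_neg.mp hsq with hfix | hneg
  · refine ⟨1, Or.inl rfl, fun _ => rfl, ?_⟩
    intro k Q hQ
    have hE0 := (key Q).1 hfix
    have hRk : p ^ k • (T Q - Q) = 0 := by
      rw [nsmul_sub, ← map_nsmul, hQ, map_zero, sub_zero]
    obtain ⟨m, hm'⟩ := hfin k (T Q - Q) hRk hE0
    exact ⟨m, by rw [one_smul, ← hTapp]; exact hm'⟩
  · refine ⟨-1, Or.inr rfl, ?_, ?_⟩
    · intro hI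
      exfalso
      have hβA : β₀ ∈ A := (A.valuation_le_one_iff _).mp hvβ₀.le
      have h1 := inertia_sub_lt_one A hI hβA
      have e : σ β₀ - β₀ = -(2 * β₀) := by
        have : σ β₀ = -β₀ := hneg
        rw [this]; ring
      rw [e, Valuation.map_neg, map_mul, h2, hvβ₀, one_mul] at h1
      exact lt_irrefl _ h1
    · intro k Q hQ
      have hE0 := (key Q).2 hneg
      have hRk : p ^ k • (T Q + Q) = 0 := by
        rw [nsmul_add, ← map_nsmul, hQ, map_zero, add_zero]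
      obtain ⟨m, hm'⟩ := hfin k (T Q + Q) hRk hE0
      exact ⟨m, by rw [neg_one_smul, sub_neg_eq_add, ← hTapp]; exact hm'⟩

end Fermat.Agent.S59lib.StrictW

end
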