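/-
S59lib / StrictW / Alg  (helper6) — Project I, block STRICT-W (C3).

**From the geometric statement to the strict ordinary line.**  Let `E/ℚ` be an elliptic curve, `p` a prime
and `g k ∈ E[p^k]` a compatible system (`p • g (k+1) = g k`, `g 1 ≠ 0`).  In the coordinates of the Tate
module `T_p E ⊗ O = O²` the system `g` has a limit `b0 ∈ O²`, unimodular, and every `σ` with
`(σ - s) E[p^k] ⊆ ℤ g k` for all `k` (`s ∈ ℤ`) has `(ρ σ - s) O² ⊆ O b0`.  Together with
`det ρ = χ_cyc` this is the prelude's `IsStrictOrdinaryAt`.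
-/
import Fermat.Agent.S59lib.StrictW.Geom
import Fermat.Agent.S59lib.Curve.General

set_option autoImplicit false
set_option linter.unusedSectionVars false
set_option linter.style.haveILetI false

noncomputable section

namespace Fermat.Agent.S59lib.StrictW

open Fermat.Agent.S58lib.Tate Fermat.Agent.S19lib Fermat.Agent.S29lib.E Fermat.Agent.S29lib.S30
open WeierstrassCurve Matrix IsLocalRing

local notation "Qb" => AlgebraicClosure ℚ
local notation "GQ" => (AlgebraicClosure ℚ ≃ₐ[ℚ] AlgebraicClosure ℚ)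

/-! ### elementary algebra over a commutative ring -/

/-- Hausdorff: an element vanishing modulo all `J^k` is zero. -/
theorem eq_zero_of_forall_mk {O : Type*} [CommRing O] (J : Ideal O) [IsHausdorff J O] (x : O)
    (h : ∀ k, Ideal.Quotient.mk (J ^ k) x = 0) : x = 0 := by
  apply IsHausdorff.haus (I := J) inferInstance
  intro k
  rw [SModEq.sub_mem, sub_zero, smul_eq_mul, Ideal.mul_top]
  exact Ideal.Quotient.eq_zero_iff_mem.1 (h k)

/-- a vector `w` with `b ∧ w = 0` for a unimodular `b` is a multiple of `b`. -/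
theorem exists_smul_of_wedge {O : Type*} [CommRing O] {b w : Fin 2 → O} (hb : ∃ i, IsUnit (b i))
    (h : b 0 * w 1 - b 1 * w 0 = 0) : ∃ c : O, w = c • b := by
  obtain ⟨i, hi⟩ := hb
  obtain ⟨t, ht⟩ := hi.exists_left_inv
  fin_cases i
  · simp only [Fin.zero_eta] at ht
    refine ⟨t * w 0, ?_⟩
    funext l
    fin_cases l
    · simp only [Fin.zero_eta, Pi.smul_apply, smul_eq_mul]
      linear_combination (-(w 0)) * ht
    · simp only [Fin.mk_one, Pi.smul_apply, smul_eq_mul]
      linear_combination (-(w 1)) * ht + t * h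
  · simp only [Fin.mk_one] at ht
    refine ⟨t * w 1, ?_⟩
    funext l
    fin_cases l
    · simp only [Fin.zero_eta, Pi.smul_apply, smul_eq_mul]
      linear_combination (-(w 0)) * ht - t * h
    · simp only [Fin.mk_one, Pi.smul_apply, smul_eq_mul]
      linear_combination (-(w 1)) * ht

/-- the line data of a `2 × 2` matrix `M` with `(M - s) O² ⊆ O b`, `b` unimodular. -/
theorem line_data {O : Type*} [CommRing O] (M : Matrix (Fin 2) (Fin 2) O) (b : Fin 2 → O)
    (hb : ∃ i, IsUnit (b i)) (s : O)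
    (h : ∀ j, b 0 * (M - s • (1 : Matrix (Fin 2) (Fin 2) O)) 1 j -
      b 1 * (M - s • (1 : Matrix (Fin 2) (Fin 2) O)) 0 j = 0) :
    ∃ x : O, M *ᵥ b = x • b ∧ (∀ v : Fin 2 → O, ∃ c : O, M *ᵥ v - s • v = c • b) ∧
      M.det = s * x := by
  obtain ⟨c0, hc0⟩ := exists_smul_of_wedge
    (w := fun i => (M - s • (1 : Matrix (Fin 2) (Fin 2) O)) i 0) hb (h 0)
  obtain ⟨c1, hc1⟩ := exists_smul_of_wedge
    (w := fun i => (M - s • (1 : Matrix (Fin 2) (Fin 2) O)) i 1) hb (h 1)
  have e00 : M 0 0 = s + c0 * b 0 := by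
    have := congrFun hc0 0
    simp only [Matrix.sub_apply, Matrix.smul_apply, Matrix.one_apply_eq, smul_eq_mul, mul_one,
      Pi.smul_apply] at this
    linear_combination this
  have e10 : M 1 0 = c0 * b 1 := by
    have := congrFun hc0 1
    simp only [Matrix.sub_apply, Matrix.smul_apply, smul_eq_mul, Pi.smul_apply, ne_eq,
      one_ne_zero, not_false_eq_true, Matrix.one_apply_ne, mul_zero, sub_zero] at this
    exact this
  have e01 : M 0 1 = c1 * b 0 := by
    have := congrFun hc1 0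
    simp only [Matrix.sub_apply, Matrix.smul_apply, smul_eq_mul, Pi.smul_apply, ne_eq,
      zero_ne_one, not_false_eq_true, Matrix.one_apply_ne, mul_zero, sub_zero] at this
    exact this
  have e11 : M 1 1 = s + c1 * b 1 := by
    have := congrFun hc1 1
    simp only [Matrix.sub_apply, Matrix.smul_apply, Matrix.one_apply_eq, smul_eq_mul, mul_one,
      Pi.smul_apply] at this
    linear_combination this
  refine ⟨s + c0 * b 0 + c1 * b 1, ?_, ?_, ?_⟩
  · funext i
    fin_cases i
    · simp only [Fin.zero_eta, Matrix.mulVec, dotProduct, Fin.sum_univ_two, e00, e01,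
        Pi.smul_apply, smul_eq_mul]
      ring
    · simp only [Fin.mk_one, Matrix.mulVec, dotProduct, Fin.sum_univ_two, e10, e11,
        Pi.smul_apply, smul_eq_mul]
      ring
  · intro v
    refine ⟨c0 * v 0 + c1 * v 1, ?_⟩
    funext i
    fin_cases i
    · simp only [Fin.zero_eta, Pi.sub_apply, Matrix.mulVec, dotProduct, Fin.sum_univ_two, e00,
        e01, Pi.smul_apply, smul_eq_mul]
      ring
    · simp only [Fin.mk_one, Pi.sub_apply, Matrix.mulVec, dotProduct, Fin.sum_univ_two, e10,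
        e11, Pi.smul_apply, smul_eq_mul]
      ring
  · rw [Matrix.det_fin_two, e00, e01, e10, e11]
    ring

/-- a unimodular vector of `O²` is the first vector of a basis. -/
theorem exists_basis_of_isUnit {O : Type*} [CommRing O] (b0 : Fin 2 → O)
    (h : ∃ i, IsUnit (b0 i)) : ∃ b : Module.Basis (Fin 2) O (Fin 2 → O), b 0 = b0 := by
  classical
  obtain ⟨i, hi⟩ := h
  let e : Module.Basis (Fin 2) O (Fin 2 → O) := Pi.basisFun O (Fin 2)
  let v : Fin 2 → (Fin 2 → O) := ![b0, e i.rev]
  have hdetv : IsUnit (e.det v) := by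
    rw [Module.Basis.det_apply, Matrix.det_fin_two]
    simp only [Module.Basis.toMatrix_apply, v, Matrix.cons_val_zero, Matrix.cons_val_one, e,
      Pi.basisFun_repr, Pi.basisFun_apply]
    fin_cases i
    · simp only [Fin.zero_eta] at hi ⊢
      have h1 : (Pi.single (Fin.rev (0 : Fin 2)) (1 : O) : Fin 2 → O) 1 = 1 := by
        simp [Fin.rev]
      have h2 : (Pi.single (Fin.rev (0 : Fin 2)) (1 : O) : Fin 2 → O) 0 = 0 := by
        simp [Fin.rev]
      rw [h1, h2, mul_one, zero_mul, sub_zero]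
      exact hi
    · simp only [Fin.mk_one] at hi ⊢
      have h1 : (Pi.single (Fin.rev (1 : Fin 2)) (1 : O) : Fin 2 → O) 1 = 0 := by
        simp [Fin.rev]
      have h2 : (Pi.single (Fin.rev (1 : Fin 2)) (1 : O) : Fin 2 → O) 0 = 1 := by
        simp [Fin.rev]
      rw [h1, h2, mul_zero, one_mul, zero_sub]
      exact hi.neg
  obtain ⟨hli, hsp⟩ := (Module.Basis.is_basis_iff_det e).mpr hdetv
  refine ⟨Module.Basis.mk hli hsp.ge, ?_⟩
  rw [Module.Basis.mk_apply]
  rfl

/-! ### passing a level identity to the limit -/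

theorem lim_identity {O : Type*} [CommRing O] (J : Ideal O) [IsHausdorff J O] {p : ℕ}
    (hpJ : (p : O) ∈ J) {M B : Matrix (Fin 2) (Fin 2) O}
    {Mk Bk : ∀ k : ℕ, Matrix (Fin 2) (Fin 2) (ZMod (p ^ k))}
    (hM : IsLim J hpJ M Mk) (hB : IsLim J hpJ B Bk) (j : Fin 2) (e0 e1 : ℤ)
    (h : ∀ k, Bk k 0 0 * (Mk k 1 j - (e1 : ZMod (p ^ k))) -
      Bk k 1 0 * (Mk k 0 j - (e0 : ZMod (p ^ k))) = 0) :
    B 0 0 * (M 1 j - (e1 : O)) - B 1 0 * (M 0 j - (e0 : O)) = 0 := by
  apply eq_zero_of_forall_mk J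
  intro k
  have hMe : ∀ i j, Ideal.Quotient.mk (J ^ k) (M i j) = psi J hpJ k (Mk k i j) := fun i j => by
    have := congrFun (congrFun (hM k) i) j
    simpa only [Matrix.map_apply] using this
  have hBe : ∀ i j, Ideal.Quotient.mk (J ^ k) (B i j) = psi J hpJ k (Bk k i j) := fun i j => by
    have := congrFun (congrFun (hB k) i) j
    simpa only [Matrix.map_apply] using this
  have h' := congrArg (psi J hpJ k) (h k)
  rw [map_sub, map_mul, map_mul, map_sub, map_sub, map_intCast, map_intCast, map_zero] at h'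
  rw [map_sub, map_mul, map_mul, map_sub, map_sub, map_intCast, map_intCast, hMe, hMe, hBe, hBe]
  exact h'

/-! ### the limit line -/

section core

variable (E : WeierstrassCurve ℚ) (hΔ : E.Δ ≠ 0) (p : ℕ) [hp : Fact p.Prime]
  {O : Type} [CommRing O] [IsLocalRing O] [IsAdicComplete (maximalIdeal O) O]
  (hpO : (p : O) ∈ maximalIdeal O)

/-- **the limit of a compatible system of torsion points** is a unimodular vector `b0` of `O²`, and every
`σ` acting on `E[p^k]` modulo `ℤ g k` by an integer scalar `s` has `(ρ σ - s) O² ⊆ O b0` (in wedge form). -/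
theorem exists_line (g : ℕ → Pts E) (h0 : g 0 = 0) (h1 : g 1 ≠ 0)
    (hg : ∀ k, p • g (k + 1) = g k) :
    ∃ b0 : Fin 2 → O, (∃ i, IsUnit (b0 i)) ∧
      ∀ (σ : GQ) (s : ℤ),
        (∀ (k : ℕ) (Q : Pts E), p ^ k • Q = 0 → ∃ m : ℤ, σ • Q - s • Q = m • g k) →
        ∀ j, b0 0 * (tateMat E p (maximalIdeal O) hpO hΔ σ -
            (s : O) • (1 : Matrix (Fin 2) (Fin 2) O)) 1 j -
          b0 1 * (tateMat E p (maximalIdeal O) hpO hΔ σ -
            (s : O) • (1 : Matrix (Fin 2) (Fin 2) O)) 0 j = 0 := by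
  classical
  set J := maximalIdeal O with hJ
  set 𝒯 := tateSystem E p hΔ with h𝒯
  have hgk : ∀ k, p ^ k • g k = 0 := by
    intro k
    induction k with
    | zero => rw [h0]; exact nsmul_zero _
    | succ k ih => rw [pow_succ, mul_smul, hg k, ih]
  let gk : ∀ k, 𝒯.T k := fun k => ⟨g k, mem_tors.2 (hgk k)⟩
  let u : ∀ k, Fin 2 → ZMod (p ^ k) := fun k => 𝒯.κ k (gk k)
  have hred : ∀ k, 𝒯.red k (gk (k + 1)) = gk k := fun k => by
    apply Subtype.ext
    show ((mulP (Pts E) p k (gk (k + 1)) : tors (Pts E) p k) : Pts E) = g k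
    rw [mulP_coe]
    exact hg k
  have hu : ∀ k i, ZMod.castHom (pow_dvd_pow p (Nat.le_succ k)) (ZMod (p ^ k)) (u (k + 1) i) =
      u k i := by
    intro k i
    have := congrFun (𝒯.κ_red k (gk (k + 1))) i
    rw [hred] at this
    exact this.symm
  let Bk : ∀ k, Matrix (Fin 2) (Fin 2) (ZMod (p ^ k)) := fun k => Matrix.of (fun i _ => u k i)
  obtain ⟨B, hB⟩ := exists_isLim J hpO Bk (by
    intro k
    ext i j
    simp only [Matrix.map_apply, Bk, Matrix.of_apply]
    exact hu k i)
  -- unimodularity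
  have hu1 : u 1 ≠ 0 := by
    intro h
    apply h1
    have : gk 1 = 0 := (𝒯.κ 1).map_eq_zero_iff.1 h
    exact congrArg Subtype.val this
  obtain ⟨i, hi⟩ := Function.ne_iff.1 hu1
  have hunit : IsUnit (B i 0) := by
    rw [← IsLocalRing.notMem_maximalIdeal]
    intro hmem
    apply hi
    haveI : Fact (p ^ 1).Prime := ⟨by rw [pow_one]; exact hp.out⟩
    haveI : Nontrivial (O ⧸ J ^ 1) := by
      rw [pow_one]
      exact Ideal.Quotient.nontrivial_iff.2 (IsLocalRing.maximalIdeal.isMaximal O).ne_top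
    have hinj : Function.Injective (psi J hpO 1) := (psi J hpO 1).injective
    apply hinj
    rw [Pi.zero_apply, map_zero]
    have := congrFun (congrFun (hB 1) i) 0
    simp only [Matrix.map_apply] at this
    rw [show u 1 i = Bk 1 i 0 from rfl, ← this]
    exact Ideal.Quotient.eq_zero_iff_mem.2 (by rw [pow_one]; exact hmem)
  refine ⟨fun i => B i 0, ⟨i, hunit⟩, fun σ s hσ j => ?_⟩
  have hentry : ∀ i j, (tateMat E p J hpO hΔ σ - (s : O) • (1 : Matrix (Fin 2) (Fin 2) O)) i j =
      tateMat E p J hpO hΔ σ i j - (((s * (if i = j then 1 else 0) : ℤ)) : O) := by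
    intro i j
    rw [Matrix.sub_apply, Matrix.smul_apply, Matrix.one_apply, smul_eq_mul]
    split_ifs <;> simp
  rw [hentry 1 j, hentry 0 j]
  apply lim_identity J hpO (isLim_tateMat E p J hpO hΔ σ) hB
  intro k
  -- the level identity
  have key : ∀ x : 𝒯.T k, ∃ m : ℤ, 𝒯.κ k (𝒯.act k σ x) - s • 𝒯.κ k x = m • u k := by
    intro x
    obtain ⟨m, hm⟩ := hσ k x.1 (mem_tors.1 x.2)
    refine ⟨m, ?_⟩
    have hx : 𝒯.act k σ x - s • x = m • gk k := by
      apply Subtype.ext
      change σ • x.1 - s • x.1 = m • g k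
      exact hm
    rw [← map_zsmul, ← map_sub, hx, map_zsmul]
  obtain ⟨m, hm⟩ := key ((𝒯.κ k).symm (Pi.single j 1))
  rw [← 𝒯.galMat_mulVec, AddEquiv.apply_symm_apply, Matrix.mulVec_single_one] at hm
  have hm' : ∀ i, 𝒯.galMat k σ i j - (((s * (if i = j then 1 else 0) : ℤ)) : ZMod (p ^ k)) =
      m * u k i := by
    intro i
    have := congrFun hm i
    simp only [Pi.sub_apply, Pi.smul_apply, Matrix.col_apply, Pi.single_apply] at this
    rw [zsmul_eq_mul, zsmul_eq_mul] at this
    rw [← this]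
    push_cast
    split_ifs <;> simp
  show u k 0 * _ - u k 1 * _ = 0
  rw [hm' 1, hm' 0]
  ring

end core

end Fermat.Agent.S59lib.StrictW

end
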