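/-
S59lib / StrictW / Main  (helper6) — Project I, block STRICT-W (C3).

**`strictWStmt : Curve.StrictWStmt`**: the `p`-adic Tate module (`p ∈ {3, 5}`, any complete DVR `O ∋ p` of
characteristic zero) of a semistable integral model `W/ℤ` with bad (multiplicative) reduction at `p` is
strict ordinary at `p` in the sense of the prelude.  Hence **`curveBlock : S59lib.CurveBlock`**.

The line is `O b0`, `b0` the limit of the compatible generators of `W[p^k] ∩ E₁` (`StrictW/Geom`); the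
decomposition group acts on it through `x = s · det`, on the quotient through the sign `z = s`
(the unramified quadratic character of the splitting field of the tangent directions at the node),
`x - a z = s (det - a)`.
-/
import Fermat.Agent.S59lib.StrictW.Alg

set_option autoImplicit false
set_option linter.unusedSectionVars false
set_option linter.style.haveILetI false

noncomputable section

namespace Fermat.Agent.S59lib.StrictW

open Fermat.Agent.S58lib.Tate Fermat.Agent.S19lib Fermat.Agent.S29lib.E Fermat.Agent.S29lib.S30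
open Fermat.Agent.S59lib.Curve
open WeierstrassCurve Matrix IsLocalRing

local notation "Qb" => AlgebraicClosure ℚ
local notation "GQ" => (AlgebraicClosure ℚ ≃ₐ[ℚ] AlgebraicClosure ℚ)

/-- **Block STRICT-W (C3).** -/
theorem strictWStmt : StrictWStmt := by
  intro p hpf hp35 W hΔ hss hbad O _ _ _ _ _ _ hpO
  have hpΔ : (p : ℤ) ∣ W.Δ := not_not.1 hbad
  have hc₄ : ¬ (p : ℤ) ∣ W.c₄ := hss p hpf.out hpΔ
  refine ⟨hpO, fun P hP => ?_⟩
  obtain ⟨g, h0, h1, hg, hσ⟩ := strictW_geom hΔ hp35 hpΔ hc₄ P hP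
  obtain ⟨b0, hb0, hline⟩ :=
    exists_line (WQ' W) (WQ'_Δ_ne_zero hΔ) p hpO g h0 h1 hg
  obtain ⟨b, hb⟩ := exists_basis_of_isUnit b0 hb0
  set M : GQ →* Matrix (Fin 2) (Fin 2) O :=
    tateMat (WQ' W) p (maximalIdeal O) hpO (WQ'_Δ_ne_zero hΔ) with hM
  -- the data for each `σ` in the decomposition group
  have hdata : ∀ σ ∈ DA P, ∃ s : ℤ, (s = 1 ∨ s = -1) ∧ (σ ∈ IA P → s = 1) ∧ ∃ x : O,
      M σ *ᵥ b0 = x • b0 ∧ (∀ v : Fin 2 → O, ∃ c : O, M σ *ᵥ v - (s : O) • v = c • b0) ∧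
        (M σ).det = (s : O) * x := by
    intro σ hσD
    obtain ⟨s, hs, hsI, hsQ⟩ := hσ σ hσD
    exact ⟨s, hs, hsI, line_data (M σ) b0 hb0 (s : O) (hline σ s hsQ)⟩
  have hmemL : ∀ v : Fin 2 → O, v ∈ (O ∙ b0 : Submodule O (Fin 2 → O)) ↔ ∃ t : O, t • b0 = v :=
    fun v => Submodule.mem_span_singleton
  have hdetρ : ∀ σ : GQ, LinearMap.det ((tateRepO W hΔ p hpO).ρ σ) = (M σ).det := by
    intro σ
    exact Fermat.Agent.S58lib.Tate.tateRep_det (WQ' W) p (WQ'_Δ_ne_zero hΔ) hpO σ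
  -- everything in matrix terms
  have main : ∃ L : Submodule O (Fin 2 → O),
      (∃ b : Module.Basis (Fin 2) O (Fin 2 → O), L = O ∙ b 0) ∧
      (∀ σ ∈ DA P, ∀ v ∈ L, M σ *ᵥ v ∈ L) ∧
      (∀ σ ∈ IA P, ∀ v : Fin 2 → O, M σ *ᵥ v - v ∈ L) ∧
      (∀ σ ∈ DA P, ∃ x z : O, (∀ w ∈ L, M σ *ᵥ w = x • w) ∧
        (∀ v : Fin 2 → O, M σ *ᵥ v - z • v ∈ L) ∧
        ∀ n a : ℕ, (∀ μ : Qb, μ ^ p ^ n = 1 → σ μ = μ ^ a) →
          x - (a : O) * z ∈ Ideal.span {((p ^ n : ℕ) : O)}) := by
    refine ⟨(O ∙ b0 : Submodule O (Fin 2 → O)), ⟨b, by rw [hb]⟩, ?_, ?_, ?_⟩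
    · -- stability
      intro σ hσD v hv
      obtain ⟨s, -, -, x, hx, -, -⟩ := hdata σ hσD
      obtain ⟨t, rfl⟩ := (hmemL v).1 hv
      rw [Matrix.mulVec_smul, hx]
      exact (hmemL _).2 ⟨t * x, by rw [mul_smul]⟩
    · -- inertia acts trivially on the quotient
      intro σ hσI v
      have hσD : σ ∈ DA P := by
        obtain ⟨τ, -, rfl⟩ := Subgroup.mem_map.1 hσI
        exact τ.2
      obtain ⟨s, -, hsI, x, -, hq, -⟩ := hdata σ hσD
      obtain ⟨c, hc⟩ := hq v
      rw [hsI hσI, Int.cast_one, one_smul] at hc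
      rw [hc]
      exact (hmemL _).2 ⟨c, rfl⟩
    · -- the characters
      intro σ hσD
      obtain ⟨s, hs, -, x, hx, hq, hdet⟩ := hdata σ hσD
      refine ⟨x, (s : O), ?_, ?_, ?_⟩
      · intro w hw
        obtain ⟨t, rfl⟩ := (hmemL w).1 hw
        rw [Matrix.mulVec_smul, hx, smul_comm]
      · intro v
        obtain ⟨c, hc⟩ := hq v
        rw [hc]
        exact (hmemL _).2 ⟨c, rfl⟩
      · intro n a ha
        have hcyc := (tateRepO_detIsCyclotomic W hΔ p hpO).2 n σ a ha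
        rw [hdetρ, hdet] at hcyc
        have hss' : (s : O) * (s : O) = 1 := by
          rcases hs with rfl | rfl <;> simp
        have : x - (a : O) * (s : O) = (s : O) * ((s : O) * x - (a : O)) := by
          linear_combination (-x) * hss'
        rw [this]
        exact Ideal.mul_mem_left _ _ hcyc
  exact main

/-- **Block CURVE.** -/
theorem curveBlock : Fermat.Agent.S59lib.CurveBlock := curveBlock_of_strictW strictWStmt

end Fermat.Agent.S59lib.StrictW

end
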