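/-
S59lib / StrictW / Newton  (helper6) — Project I, block STRICT-W (C3).

Two elementary "Newton polygon" facts for a polynomial `f` with integral coefficients over a valued
field `(K, v)`:
* `card_big_roots_add_le`: if `natDegree f ≤ n` and the coefficient of `X ^ d` is a unit, then `f` has
  at most `n - d` roots `r` with `1 < v r`;
* `exists_big_root`: if `K` is algebraically closed, the leading coefficient is a non-unit and some
  coefficient is a unit, then `f` has a root `r` with `1 < v r`.
-/
import Mathlib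

set_option autoImplicit false

namespace Fermat.Agent.S59lib.StrictW

open Polynomial

variable {K : Type*} [Field K] {Γ₀ : Type*} [LinearOrderedCommGroupWithZero Γ₀] (v : Valuation K Γ₀)

/-- all coefficients are integral -/
def IntCoeff (f : K[X]) : Prop := ∀ i, v (f.coeff i) ≤ 1

variable {v}

theorem IntCoeff.mul {f g : K[X]} (hf : IntCoeff v f) (hg : IntCoeff v g) : IntCoeff v (f * g) := by
  intro i
  rw [coeff_mul]
  apply Valuation.map_sum_le
  intro x _
  rw [map_mul]
  exact mul_le_one' (hf _) (hg _)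

theorem intCoeff_X_sub_C {r : K} (hr : v r ≤ 1) : IntCoeff v (X - C r) := by
  intro i
  rw [coeff_sub, coeff_X, coeff_C]
  by_cases h1 : 1 = i
  · by_cases h0 : i = 0
    · omega
    · rw [if_pos h1, if_neg h0, sub_zero, map_one]
  · by_cases h0 : i = 0
    · rw [if_neg h1, if_pos h0, zero_sub, Valuation.map_neg]; exact hr
    · rw [if_neg h1, if_neg h0, sub_zero, map_zero]; exact zero_le_one

theorem intCoeff_one : IntCoeff v (1 : K[X]) := by
  intro i
  rw [coeff_one]
  split_ifs
  · rw [map_one]
  · rw [map_zero]; exact zero_le_one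

theorem intCoeff_multiset_prod (s : Multiset K) (hs : ∀ r ∈ s, v r ≤ 1) :
    IntCoeff v (s.map (fun r => X - C r)).prod := by
  induction s using Multiset.induction_on with
  | empty => simpa using intCoeff_one
  | cons a s ih =>
    rw [Multiset.map_cons, Multiset.prod_cons]
    exact (intCoeff_X_sub_C (hs a (Multiset.mem_cons_self a s))).mul
      (ih fun r hr => hs r (Multiset.mem_cons_of_mem hr))

/-- **existence of a big root** -/
theorem exists_big_root [IsAlgClosed K] (f : K[X]) (hlead : v f.leadingCoeff < 1) (d : ℕ)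
    (hd : v (f.coeff d) = 1) : ∃ r : K, 1 < v r ∧ f.IsRoot r := by
  by_contra hcon
  push Not at hcon
  have hroots : ∀ r ∈ f.roots, v r ≤ 1 := by
    intro r hr
    by_contra h
    exact hcon r (not_le.mp h) (isRoot_of_mem_roots hr)
  have hsp := (IsAlgClosed.splits f).eq_prod_roots
  have hG := intCoeff_multiset_prod f.roots hroots
  have h1 : f.coeff d = f.leadingCoeff * ((f.roots.map (fun r => X - C r)).prod).coeff d := by
    conv_lhs => rw [hsp]
    rw [coeff_C_mul]
  have h2 : v (f.coeff d) < 1 := by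
    rw [h1, map_mul]
    calc v f.leadingCoeff * v (((f.roots.map (fun r => X - C r)).prod).coeff d)
        ≤ v f.leadingCoeff * 1 := mul_le_mul' le_rfl (hG d)
      _ = v f.leadingCoeff := mul_one _
      _ < 1 := hlead
  rw [hd] at h2
  exact lt_irrefl _ h2

/-- dividing out a big root `r`: `f = (1 - r⁻¹ X) g` with `g` integral and `g ≡ f` modulo the maximal
ideal. -/
theorem exists_factor_big_root {f : K[X]} (hf : IntCoeff v f) {r : K} (hr : 1 < v r)
    (hroot : f.IsRoot r) :
    ∃ g : K[X], f = (1 - C r⁻¹ * X) * g ∧ IntCoeff v g ∧ (∀ i, v (g.coeff i - f.coeff i) < 1) ∧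
      ∀ r' : K, r' ≠ r → f.IsRoot r' → g.IsRoot r' := by
  have hr0 : r ≠ 0 := by
    rintro rfl
    rw [map_zero] at hr
    exact not_lt.mpr zero_le_one hr
  have hs : v r⁻¹ < 1 := by
    rw [map_inv₀]
    exact inv_lt_one_of_one_lt₀ hr
  obtain ⟨q, hq⟩ := dvd_iff_isRoot.mpr hroot
  obtain ⟨g, hg⟩ : ∃ g : K[X], g = C (-r) * q := ⟨_, rfl⟩
  have hfg : f = (1 - C r⁻¹ * X) * g := by
    rw [hq, hg]
    have : (1 - C r⁻¹ * X) * (C (-r) * q) = (C (-r) - C (r⁻¹ * -r) * X) * q := by
      rw [C_mul]; ring
    rw [this]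
    have e : r⁻¹ * -r = -1 := by field_simp
    rw [e]
    simp only [map_neg, map_one]
    ring
  refine ⟨g, hfg, ?_⟩
  have hc0 : g.coeff 0 = f.coeff 0 := by
    rw [hfg]
    simp [mul_coeff_zero]
  have hcs : ∀ i, g.coeff (i + 1) = f.coeff (i + 1) + r⁻¹ * g.coeff i := by
    intro i
    have : f.coeff (i + 1) = g.coeff (i + 1) - r⁻¹ * g.coeff i := by
      conv_lhs => rw [hfg]
      rw [sub_mul, one_mul, coeff_sub, mul_assoc, coeff_C_mul, coeff_X_mul]
    rw [this]; ring
  have hint : ∀ i, v (g.coeff i) ≤ 1 := by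
    intro i
    induction i with
    | zero => rw [hc0]; exact hf 0
    | succ i ih =>
      rw [hcs]
      refine Valuation.map_add_le _ (hf _) ?_
      rw [map_mul]
      exact mul_le_one' hs.le ih
  refine ⟨hint, ?_, ?_⟩
  · intro i
    cases i with
    | zero => rw [hc0, sub_self, map_zero]; exact zero_lt_one
    | succ i =>
      rw [hcs, add_sub_cancel_left, map_mul]
      calc v r⁻¹ * v (g.coeff i) ≤ v r⁻¹ * 1 := mul_le_mul' le_rfl (hint i)
        _ = v r⁻¹ := mul_one _
        _ < 1 := hs
  · intro r' hr' hroot'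
    rw [IsRoot.def, hq, eval_mul, eval_sub, eval_X, eval_C] at hroot'
    have hq0 : q.eval r' = 0 := (mul_eq_zero.mp hroot').resolve_left (sub_ne_zero.mpr hr')
    rw [IsRoot.def, hg, eval_mul, hq0, mul_zero]

/-- **at most `n - d` big roots** -/
theorem card_big_roots_add_le (f : K[X]) (hf : IntCoeff v f) (n d : ℕ) (hn : f.natDegree ≤ n)
    (hd : v (f.coeff d) = 1) (T : Finset K) (hT : ∀ r ∈ T, 1 < v r ∧ f.IsRoot r) :
    T.card + d ≤ n := by
  classical
  induction T using Finset.induction_on generalizing f n with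
  | empty =>
    rw [Finset.card_empty, zero_add]
    by_contra h
    have : f.coeff d = 0 := coeff_eq_zero_of_natDegree_lt (lt_of_le_of_lt hn (not_le.mp h))
    rw [this, map_zero] at hd
    exact zero_ne_one hd
  | insert r T hrT ih =>
    obtain ⟨hr, hroot⟩ := hT r (Finset.mem_insert_self r T)
    obtain ⟨g, hfg, hgint, hgf, hgroots⟩ := exists_factor_big_root hf hr hroot
    have hf0 : f ≠ 0 := by
      rintro rfl
      rw [coeff_zero, map_zero] at hd
      exact zero_ne_one hd
    have hg0 : g ≠ 0 := by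
      rintro rfl
      exact hf0 (by rw [hfg, mul_zero])
    have hr0 : r ≠ 0 := by
      rintro rfl
      rw [map_zero] at hr
      exact not_lt.mpr zero_le_one hr
    have hlin : (1 - C r⁻¹ * X : K[X]).natDegree = 1 := by
      have e : (1 - C r⁻¹ * X : K[X]) = C (-r⁻¹) * X + C 1 := by
        simp only [map_neg, map_one]; ring
      rw [e]
      exact natDegree_linear (neg_ne_zero.mpr (inv_ne_zero hr0))
    have hlin0 : (1 - C r⁻¹ * X : K[X]) ≠ 0 := by
      intro h
      rw [h, natDegree_zero] at hlin
      exact zero_ne_one hlin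
    have hdeg : f.natDegree = 1 + g.natDegree := by
      rw [hfg, natDegree_mul hlin0 hg0, hlin]
    have hgd : v (g.coeff d) = 1 := by
      have e : g.coeff d = f.coeff d + (g.coeff d - f.coeff d) := by ring
      rw [e, Valuation.map_add_eq_of_lt_left, hd]
      rw [hd]; exact hgf d
    have hn1 : 1 ≤ n := by omega
    have := ih g hgint (n - 1) (by omega) hgd (fun r' hr' => by
      have hne : r' ≠ r := fun h => hrT (h ▸ hr')
      obtain ⟨h1, h2⟩ := hT r' (Finset.mem_insert_of_mem hr')
      exact ⟨h1, hgroots r' hne h2⟩)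
    rw [Finset.card_insert_of_notMem hrT]
    omega

/-- the coefficient of `X ^ (2 d)` of `f ^ 2` is a unit if that of `X ^ d` of `f` is and the higher ones
are non-units -/
theorem coeff_sq_unit {f : K[X]} (hf : IntCoeff v f) {d : ℕ} (hd : v (f.coeff d) = 1)
    (hhigh : ∀ i, d < i → v (f.coeff i) < 1) : v ((f ^ 2).coeff (2 * d)) = 1 := by
  classical
  rw [pow_two, coeff_mul]
  have hmem : (d, d) ∈ Finset.HasAntidiagonal.antidiagonal (2 * d) := by
    rw [Finset.HasAntidiagonal.mem_antidiagonal]; ring
  rw [← Finset.add_sum_erase _ _ hmem]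
  have hrest : v (∑ x ∈ (Finset.HasAntidiagonal.antidiagonal (2 * d)).erase (d, d), f.coeff x.1 * f.coeff x.2) < 1 := by
    apply Valuation.map_sum_lt _ one_ne_zero
    intro x hx
    obtain ⟨hne, hx⟩ := Finset.mem_erase.mp hx
    rw [Finset.HasAntidiagonal.mem_antidiagonal] at hx
    rw [map_mul]
    have : d < x.1 ∨ d < x.2 := by
      by_contra h
      push Not at h
      apply hne
      ext <;> simp only <;> omega
    rcases this with h | h
    · calc v (f.coeff x.1) * v (f.coeff x.2) ≤ v (f.coeff x.1) * 1 := mul_le_mul' le_rfl (hf _)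
        _ = v (f.coeff x.1) := mul_one _
        _ < 1 := hhigh _ h
    · calc v (f.coeff x.1) * v (f.coeff x.2) ≤ 1 * v (f.coeff x.2) := mul_le_mul' (hf _) le_rfl
        _ = v (f.coeff x.2) := one_mul _
        _ < 1 := hhigh _ h
  rw [Valuation.map_add_eq_of_lt_left, map_mul, hd, one_mul]
  rw [map_mul, hd, one_mul]
  exact hrest

end Fermat.Agent.S59lib.StrictW
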