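/-
S59lib / StrictW / Psi  (helper6) — Project I, block STRICT-W (C3).

The ladder polynomials `ψ₃ = ladF W 1` and `ψ₅ = ladF W 2` (S13lib) in closed form.
-/
import Fermat.Agent.S13lib.LadderDegree
import Fermat.Agent.S13lib.LadderTorsion
import Fermat.Agent.S41lib.NE.TorsionCard

set_option autoImplicit false

namespace Fermat.Agent.S59lib.StrictW

open Fermat.Agent.S13lib Fermat.Agent.S41lib.NE Polynomial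

section explicit

variable {S : Type*} [CommRing S] (b₂ b₄ b₆ b₈ x : S)

theorem lad_one : lad b₂ b₄ b₆ b₈ x 1 =
    ((x, 1), (ldblX b₄ b₆ b₈ x 1, ldblZ b₂ b₄ b₆ x 1)) := by
  have h := lad_two_mul_add_one b₂ b₄ b₆ b₈ x 0
  rw [Nat.mul_zero, Nat.zero_add, lad_zero] at h
  rw [h]
  simp only [ladStep, if_true, laddX, laddZ]
  refine Prod.ext (Prod.ext ?_ ?_) rfl <;> simp only [] <;> ring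

theorem ladFval_one : ladFval b₂ b₄ b₆ b₈ x 1 =
    3 * x ^ 4 + b₂ * x ^ 3 + 3 * b₄ * x ^ 2 + 3 * b₆ * x + b₈ := by
  simp only [ladFval, lad_one, ldblX, ldblZ]
  ring

theorem lad_two : lad b₂ b₄ b₆ b₈ x 2 =
    ((ldblX b₄ b₆ b₈ x 1, ldblZ b₂ b₄ b₆ x 1),
      (laddX b₂ b₄ b₆ x x 1 (ldblX b₄ b₆ b₈ x 1) (ldblZ b₂ b₄ b₆ x 1),
        laddZ x 1 (ldblX b₄ b₆ b₈ x 1) (ldblZ b₂ b₄ b₆ x 1))) := by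
  have h := lad_two_mul b₂ b₄ b₆ b₈ x 1
  rw [Nat.mul_one] at h
  rw [h, lad_one]
  simp only [ladStep, Bool.false_eq_true, if_false]

theorem ladFval_two : ladFval b₂ b₄ b₆ b₈ x 2 =
    (5) * x ^ 12 +
      (5 * b₂) * x ^ 11 +
      (b₂ ^ 2 + 31 * b₄) * x ^ 10 +
      (10 * b₂ * b₄ + 95 * b₆) * x ^ 9 +
      (54 * b₂ * b₆ - 9 * b₄ ^ 2 + 69 * b₈) * x ^ 8 +
      (11 * b₂ ^ 2 * b₆ - 11 * b₂ * b₄ ^ 2 + 46 * b₂ * b₈ + 30 * b₄ * b₆) * x ^ 7 +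
      (b₂ ^ 3 * b₆ - b₂ ^ 2 * b₄ ^ 2 + 11 * b₂ ^ 2 * b₈ + 8 * b₂ * b₄ * b₆ - 23 * b₄ ^ 3 + 58 * b₄ * b₈ - 15 * b₆ ^ 2) * x ^ 6 +
      (b₂ ^ 3 * b₈ + 3 * b₂ ^ 2 * b₄ * b₆ - 4 * b₂ * b₄ ^ 3 + 30 * b₂ * b₄ * b₈ - 6 * b₂ * b₆ ^ 2 - 45 * b₄ ^ 2 * b₆ - 6 * b₆ * b₈) * x ^ 5 +
      (5 * b₂ ^ 2 * b₄ * b₈ + b₂ ^ 2 * b₆ ^ 2 - 2 * b₂ * b₄ ^ 2 * b₆ + 2 * b₂ * b₆ * b₈ - 4 * b₄ ^ 4 + 13 * b₄ ^ 2 * b₈ - 60 * b₄ * b₆ ^ 2 - 9 * b₈ ^ 2) * x ^ 4 +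
      (2 * b₂ ^ 2 * b₆ * b₈ + 8 * b₂ * b₄ ^ 2 * b₈ - 2 * b₂ * b₄ * b₆ ^ 2 - 3 * b₂ * b₈ ^ 2 - 8 * b₄ ^ 3 * b₆ - 22 * b₄ * b₆ * b₈ - 25 * b₆ ^ 3) * x ^ 3 +
      (6 * b₂ * b₄ * b₆ * b₈ - b₂ * b₆ ^ 3 + 4 * b₄ ^ 3 * b₈ - 9 * b₄ ^ 2 * b₆ ^ 2 - 9 * b₄ * b₈ ^ 2 - 21 * b₆ ^ 2 * b₈) * x ^ 2 +
      (b₂ * b₆ ^ 2 * b₈ + 4 * b₄ ^ 2 * b₆ * b₈ - 5 * b₄ * b₆ ^ 3 - 9 * b₆ * b₈ ^ 2) * x +
      (b₄ * b₆ ^ 2 * b₈ - b₆ ^ 4 - b₈ ^ 3) := by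
  simp only [ladFval, lad_two, ldblX, ldblZ, laddX, laddZ]
  ring

end explicit

section poly

variable {R : Type*} [CommRing R] (W : WeierstrassCurve R)

/-- `ψ₃` in closed form -/
theorem ladF_one_eq : ladF W 1 =
    C 3 * X ^ 4 + C W.b₂ * X ^ 3 + C (3 * W.b₄) * X ^ 2 + C (3 * W.b₆) * X + C W.b₈ := by
  rw [ladF, ladFval_one]
  simp only [map_mul, map_ofNat]

theorem ladF_one_coeff_three : (ladF W 1).coeff 3 = W.b₂ := by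
  rw [ladF_one_eq]
  simp only [coeff_add, coeff_C_mul_X_pow, coeff_C_mul, coeff_X, coeff_C]
  norm_num

/-- the lower part of `ψ₅` -/
noncomputable def psiFiveLow : R[X] :=
  C (10 * W.b₂ * W.b₄ + 95 * W.b₆) * X ^ 9 +
  C (54 * W.b₂ * W.b₆ - 9 * W.b₄ ^ 2 + 69 * W.b₈) * X ^ 8 +
  C (11 * W.b₂ ^ 2 * W.b₆ - 11 * W.b₂ * W.b₄ ^ 2 + 46 * W.b₂ * W.b₈ + 30 * W.b₄ * W.b₆) * X ^ 7 +
  C (W.b₂ ^ 3 * W.b₆ - W.b₂ ^ 2 * W.b₄ ^ 2 + 11 * W.b₂ ^ 2 * W.b₈ + 8 * W.b₂ * W.b₄ * W.b₆ -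
    23 * W.b₄ ^ 3 + 58 * W.b₄ * W.b₈ - 15 * W.b₆ ^ 2) * X ^ 6 +
  C (W.b₂ ^ 3 * W.b₈ + 3 * W.b₂ ^ 2 * W.b₄ * W.b₆ - 4 * W.b₂ * W.b₄ ^ 3 + 30 * W.b₂ * W.b₄ * W.b₈ -
    6 * W.b₂ * W.b₆ ^ 2 - 45 * W.b₄ ^ 2 * W.b₆ - 6 * W.b₆ * W.b₈) * X ^ 5 +
  C (5 * W.b₂ ^ 2 * W.b₄ * W.b₈ + W.b₂ ^ 2 * W.b₆ ^ 2 - 2 * W.b₂ * W.b₄ ^ 2 * W.b₆ +
    2 * W.b₂ * W.b₆ * W.b₈ - 4 * W.b₄ ^ 4 + 13 * W.b₄ ^ 2 * W.b₈ - 60 * W.b₄ * W.b₆ ^ 2 -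
    9 * W.b₈ ^ 2) * X ^ 4 +
  C (2 * W.b₂ ^ 2 * W.b₆ * W.b₈ + 8 * W.b₂ * W.b₄ ^ 2 * W.b₈ - 2 * W.b₂ * W.b₄ * W.b₆ ^ 2 -
    3 * W.b₂ * W.b₈ ^ 2 - 8 * W.b₄ ^ 3 * W.b₆ - 22 * W.b₄ * W.b₆ * W.b₈ - 25 * W.b₆ ^ 3) * X ^ 3 +
  C (6 * W.b₂ * W.b₄ * W.b₆ * W.b₈ - W.b₂ * W.b₆ ^ 3 + 4 * W.b₄ ^ 3 * W.b₈ - 9 * W.b₄ ^ 2 * W.b₆ ^ 2 -
    9 * W.b₄ * W.b₈ ^ 2 - 21 * W.b₆ ^ 2 * W.b₈) * X ^ 2 +
  C (W.b₂ * W.b₆ ^ 2 * W.b₈ + 4 * W.b₄ ^ 2 * W.b₆ * W.b₈ - 5 * W.b₄ * W.b₆ ^ 3 -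
    9 * W.b₆ * W.b₈ ^ 2) * X +
  C (W.b₄ * W.b₆ ^ 2 * W.b₈ - W.b₆ ^ 4 - W.b₈ ^ 3)

theorem psiFiveLow_natDegree_le : (psiFiveLow W).natDegree ≤ 9 := by
  unfold psiFiveLow
  compute_degree

/-- `ψ₅` in closed form -/
theorem ladF_two_eq : ladF W 2 =
    C 5 * X ^ 12 + C (5 * W.b₂) * X ^ 11 + C (W.b₂ ^ 2 + 31 * W.b₄) * X ^ 10 + psiFiveLow W := by
  rw [ladF, ladFval_two, psiFiveLow]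
  simp only [map_mul, map_ofNat, map_add, map_sub, map_pow]
  ring

theorem ladF_two_coeff_ten : (ladF W 2).coeff 10 = W.b₂ ^ 2 + 31 * W.b₄ := by
  rw [ladF_two_eq, coeff_add, coeff_eq_zero_of_natDegree_lt
    (lt_of_le_of_lt (psiFiveLow_natDegree_le W) (by norm_num))]
  simp only [coeff_add, coeff_C_mul_X_pow]
  norm_num

theorem ladF_two_coeff_eleven : (ladF W 2).coeff 11 = 5 * W.b₂ := by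
  rw [ladF_two_eq, coeff_add, coeff_eq_zero_of_natDegree_lt
    (lt_of_le_of_lt (psiFiveLow_natDegree_le W) (by norm_num))]
  simp only [coeff_add, coeff_C_mul_X_pow]
  norm_num

/-- the ladder denominator at an odd index is the square of `ladF` -/
theorem ladB_odd (m : ℕ) : ladB W (2 * m + 1) = ladF W m ^ 2 := by
  rw [ladB, ladPoly, lad_odd_Z, ladF]

theorem ladA_map {S : Type*} [CommRing S] (f : R →+* S) (n : ℕ) :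
    (ladA W n).map f = ladA (W.map f) n := by
  have := lad_map (mapRingHom f) (C W.b₂) (C W.b₄) (C W.b₆) (C W.b₈) (X : R[X]) n
  simp only [coe_mapRingHom, map_C, map_X] at this
  rw [ladA, ladA, ladPoly, ladPoly, WeierstrassCurve.map_b₂, WeierstrassCurve.map_b₄,
    WeierstrassCurve.map_b₆, WeierstrassCurve.map_b₈, this]
  rfl

theorem ladB_map {S : Type*} [CommRing S] (f : R →+* S) (n : ℕ) :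
    (ladB W n).map f = ladB (W.map f) n := by
  have := lad_map (mapRingHom f) (C W.b₂) (C W.b₄) (C W.b₆) (C W.b₈) (X : R[X]) n
  simp only [coe_mapRingHom, map_C, map_X] at this
  rw [ladB, ladB, ladPoly, ladPoly, WeierstrassCurve.map_b₂, WeierstrassCurve.map_b₄,
    WeierstrassCurve.map_b₆, WeierstrassCurve.map_b₈, this]
  rfl

end poly

end Fermat.Agent.S59lib.StrictW
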