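/-
S59lib / StrictW / KerP  (helper6) — Project I, block STRICT-W (C3).

The `p`-torsion of the kernel of reduction `E₁` of an integral Weierstrass model `W` over `ℤ` at a place
`A` of `ℚ̄` over `p ∈ {3, 5}` with `p ∤ c₄(W)` (ordinary or multiplicative reduction: the formal group has
height one), from the ladder polynomial `ψ_p` (`StrictW/Psi`) and the Newton lemmas (`StrictW/Newton`):
* `exists_tors_not_inE1`: some point of `W[p]` is not in `E₁`;
* `exists_ne_zero_tors_inE1`: some non-zero point of `W[p]` is in `E₁`;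
* `inE1_divisible`: `E₁` is `p`-divisible.
-/
import Fermat.Agent.S59lib.StrictW.Psi
import Fermat.Agent.S59lib.StrictW.Newton
import Fermat.Agent.S59lib.Flat.Germ

set_option autoImplicit false
set_option linter.unusedSectionVars false
set_option linter.style.haveILetI false

noncomputable section

namespace Fermat.Agent.S59lib.StrictW

open Fermat.Agent.S13lib Fermat.Agent.S41lib.NE Fermat.Agent.S05lib Fermat.Agent.S58lib.Tate
open Fermat.Agent.S59lib.Flat Fermat.Agent.S19lib Polynomial WeierstrassCurve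

local notation "Qb" => AlgebraicClosure ℚ
local notation "GQ" => (AlgebraicClosure ℚ ≃ₐ[ℚ] AlgebraicClosure ℚ)

variable (W : WeierstrassCurve ℤ)

/-- the curve over `ℚ̄` is the image of `W` under `ℤ → ℚ̄` -/
theorem WB_eq_map : (WB W : WeierstrassCurve Qb) = W.map (Int.castRingHom Qb) := by
  show (W.map (Int.castRingHom ℚ)).map (algebraMap ℚ Qb) = _
  rw [WeierstrassCurve.map_map]
  congr 1

theorem ladF_WB (m : ℕ) : ladF (WB W) m = (ladF W m).map (Int.castRingHom Qb) := by
  rw [ladF_map, ← WB_eq_map]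

theorem ladA_WB (n : ℕ) : ladA (WB W) n = (ladA W n).map (Int.castRingHom Qb) := by
  rw [ladA_map, ← WB_eq_map]

theorem ladB_WB (n : ℕ) : ladB (WB W) n = (ladB W n).map (Int.castRingHom Qb) := by
  rw [ladB_map, ← WB_eq_map]

variable {p : ℕ} [hp : Fact p.Prime] (A : ValuationSubring Qb)

theorem intCoeff_map_int (f : ℤ[X]) : IntCoeff A.valuation (f.map (Int.castRingHom Qb)) := by
  intro i
  rw [coeff_map]
  exact G.val_intCast_le_one _

variable {W A}

/-- the shape of `ψ_p` modulo `p` when `p ∤ c₄` -/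
theorem psi_data (hA : A.LiesOverPrime p) (hp35 : p = 3 ∨ p = 5) (hc₄ : ¬ (p : ℤ) ∣ W.c₄) :
    ∃ m d : ℕ, p = 2 * m + 1 ∧ d + m = 2 * m ^ 2 + 2 * m ∧
      A.valuation ((ladF (WB W) m).coeff d) = 1 ∧
      ∀ i, d < i → A.valuation ((ladF (WB W) m).coeff i) < 1 := by
  have hpv := G.val_prime_lt_one hA
  rcases hp35 with rfl | rfl
  · refine ⟨1, 3, by norm_num, by norm_num, ?_, ?_⟩
    · rw [ladF_WB, coeff_map, ladF_one_coeff_three]
      apply G.val_intCast_eq_one hp.out hA
      intro h
      apply hc₄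
      rw [WeierstrassCurve.c₄]
      exact dvd_sub (dvd_pow h two_ne_zero) (Dvd.dvd.mul_right (by norm_num) _)
    · intro i hi
      rcases Nat.lt_or_ge 4 i with h4 | h4
      · rw [coeff_eq_zero_of_natDegree_lt (lt_of_le_of_lt (ladF_natDegree_le (WB W) 1) (by omega)),
          map_zero]
        exact zero_lt_one
      · have : i = 4 := by omega
        subst this
        have := ladF_coeff_top (WB W) 1
        norm_num at this
        rw [this]
        have e : (3 : Qb) = ((3 : ℕ) : Qb) := by norm_num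
        rw [e]
        exact hpv
  · refine ⟨2, 10, by norm_num, by norm_num, ?_, ?_⟩
    · rw [ladF_WB, coeff_map, ladF_two_coeff_ten]
      apply G.val_intCast_eq_one hp.out hA
      intro h
      apply hc₄
      rw [WeierstrassCurve.c₄]
      have e : W.b₂ ^ 2 - 24 * W.b₄ = (W.b₂ ^ 2 + 31 * W.b₄) - ((5 : ℕ) : ℤ) * (11 * W.b₄) := by
        push_cast; ring
      rw [e]
      exact dvd_sub h (Dvd.intro _ rfl)
    · intro i hi
      rcases Nat.lt_or_ge 12 i with h4 | h4
      · rw [coeff_eq_zero_of_natDegree_lt (lt_of_le_of_lt (ladF_natDegree_le (WB W) 2) (by omega)),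
          map_zero]
        exact zero_lt_one
      · have : i = 11 ∨ i = 12 := by omega
        rcases this with rfl | rfl
        · rw [ladF_WB, coeff_map, ladF_two_coeff_eleven]
          refine lt_of_le_of_lt (G.val_intCast_le_of_dvd (ℓ := 5) (Dvd.intro _ rfl)) hpv
        · have := ladF_coeff_top (WB W) 2
          norm_num at this
          rw [this]
          have e : (5 : Qb) = ((5 : ℕ) : Qb) := by norm_num
          rw [e]
          exact hpv

theorem WB_Δ_ne_zero (hΔ : W.Δ ≠ 0) : (WB W).Δ ≠ 0 :=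
  baseChange_Δ_ne_zero _ (WQ'_Δ_ne_zero hΔ)

theorem val_p_cast_lt (hA : A.LiesOverPrime p) {m : ℕ} (hpm : p = 2 * m + 1) :
    A.valuation (2 * (m : Qb) + 1) < 1 := by
  have e : (2 * (m : Qb) + 1) = ((p : ℕ) : Qb) := by rw [hpm]; push_cast; ring
  rw [e]
  exact G.val_prime_lt_one hA

theorem p_cast_ne_zero {m : ℕ} (hpm : p = 2 * m + 1) : (2 * (m : Qb) + 1) ≠ 0 := by
  have e : (2 * (m : Qb) + 1) = ((p : ℕ) : Qb) := by rw [hpm]; push_cast; ring
  rw [e]
  exact_mod_cast hp.out.ne_zero

/-- **some non-zero `p`-torsion point lies in the kernel of reduction.** -/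
theorem exists_ne_zero_tors_inE1 (hΔ : W.Δ ≠ 0) (hA : A.LiesOverPrime p) (hp35 : p = 3 ∨ p = 5)
    (hc₄ : ¬ (p : ℤ) ∣ W.c₄) :
    ∃ P : Pts (WQ' W), P ≠ 0 ∧ p • P = 0 ∧ InE1 A.valuation (WB W) P := by
  classical
  obtain ⟨m, d, hpm, hdm, hd, hhigh⟩ := psi_data hA hp35 hc₄
  have hlead : A.valuation (ladF (WB W) m).leadingCoeff < 1 := by
    rw [ladF_leadingCoeff (WB W) m (p_cast_ne_zero hpm)]
    exact val_p_cast_lt hA hpm
  obtain ⟨r, hr, hroot⟩ := exists_big_root (ladF (WB W) m) hlead d hd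
  obtain ⟨y, hy⟩ := exists_equation_of_x (WB W) r
  have hns : (WB W).Nonsingular r y :=
    (Affine.equation_iff_nonsingular_of_Δ_ne_zero (WB_Δ_ne_zero hΔ)).mp hy
  refine ⟨Affine.Point.some r y hns, Affine.Point.some_ne_zero hns, ?_, (inE1_some hns).mpr hr⟩
  rw [hpm]
  exact (odd_nsmul_eq_zero_iff_ladF (WB W) hns m).mpr hroot

/-- **some `p`-torsion point does not lie in the kernel of reduction.** -/
theorem exists_tors_not_inE1 (hΔ : W.Δ ≠ 0) (hA : A.LiesOverPrime p) (hp35 : p = 3 ∨ p = 5)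
    (hc₄ : ¬ (p : ℤ) ∣ W.c₄) :
    ∃ P : Pts (WQ' W), p • P = 0 ∧ ¬ InE1 A.valuation (WB W) P := by
  classical
  by_contra hcon
  push Not at hcon
  obtain ⟨m, d, hpm, hdm, hd, hhigh⟩ := psi_data hA hp35 hc₄
  set f := ladF (WB W) m with hf
  set T : Finset Qb := f.roots.toFinset.filter (fun r => 1 < A.valuation r) with hT
  have hfint : IntCoeff A.valuation f := by
    rw [hf, ladF_WB]; exact intCoeff_map_int A _
  have hTcard : T.card + d ≤ 2 * m ^ 2 + 2 * m :=
    card_big_roots_add_le f hfint _ d (ladF_natDegree_le (WB W) m) hd T (fun r hr =>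
      ⟨(Finset.mem_filter.1 hr).2,
        isRoot_of_mem_roots (Multiset.mem_toFinset.1 (Finset.mem_filter.1 hr).1)⟩)
  have hf0 : f ≠ 0 := ladF_ne_zero (WB W) m (p_cast_ne_zero hpm)
  have hsub : {P : Pts (WQ' W) | p • P = 0} ⊆
      ↑(insert (0 : (WB W).Point) (T.biUnion (fiberX (WB W)))) := by
    intro P hP
    simp only [Finset.coe_insert, Finset.coe_biUnion, Set.mem_insert_iff, Set.mem_iUnion]
    cases P with
    | zero => exact Or.inl rfl
    | some x y hxy =>
      right
      have hP' : p • (Affine.Point.some x y hxy : (WB W).Point) = 0 := hP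
      have hroot : f.eval x = 0 := by
        rw [hpm] at hP'
        exact (odd_nsmul_eq_zero_iff_ladF (WB W) hxy m).mp hP'
      have hx1 : 1 < A.valuation x := (inE1_some hxy).mp (hcon _ hP')
      refine ⟨x, ?_, mem_fiberX (WB W) hxy⟩
      rw [Finset.mem_coe, hT, Finset.mem_filter, Multiset.mem_toFinset, mem_roots hf0]
      exact ⟨hroot, hx1⟩
  have hcard1 : (insert (0 : (WB W).Point) (T.biUnion (fiberX (WB W)))).card ≤ p := by
    calc (insert (0 : (WB W).Point) (T.biUnion (fiberX (WB W)))).card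
        ≤ (T.biUnion (fiberX (WB W))).card + 1 := Finset.card_insert_le _ _
      _ ≤ (∑ x ∈ T, (fiberX (WB W) x).card) + 1 := Nat.add_le_add_right Finset.card_biUnion_le 1
      _ ≤ (∑ _x ∈ T, 2) + 1 :=
          Nat.add_le_add_right (Finset.sum_le_sum fun x _ => card_fiberX_le (WB W) x) 1
      _ = T.card * 2 + 1 := by rw [Finset.sum_const, smul_eq_mul]
      _ ≤ p := by omega
  have hncard : {P : Pts (WQ' W) | p • P = 0}.ncard ≤ p :=
    le_trans (Set.ncard_le_ncard hsub (Finset.finite_toSet _))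
      (by rw [Set.ncard_coe_finset]; exact hcard1)
  have hcard2 := card_torsionBy_eq_sq (WB W) (WB_Δ_ne_zero hΔ) p hp.out.two_le
  have hset : ((Submodule.torsionBy ℤ (WB W).Point p : Submodule ℤ (WB W).Point) : Set (WB W).Point) =
      {P : Pts (WQ' W) | p • P = 0} := by
    ext P
    simp only [SetLike.mem_coe, Submodule.mem_torsionBy_iff, natCast_zsmul, Set.mem_ofPred_eq]
  have hcard3 : {P : Pts (WQ' W) | p • P = 0}.ncard = p ^ 2 := by
    rw [← hset, ← _root_.Nat.card_coe_set_eq]
    exact hcard2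
  rw [hcard3] at hncard
  have h2 : 2 ≤ p := hp.out.two_le
  nlinarith

/-- **the kernel of reduction is `p`-divisible.** -/
theorem inE1_divisible (hΔ : W.Δ ≠ 0) (hA : A.LiesOverPrime p) (hp35 : p = 3 ∨ p = 5)
    (hc₄ : ¬ (p : ℤ) ∣ W.c₄) (R : Pts (WQ' W)) (hR : InE1 A.valuation (WB W) R) :
    ∃ Q : Pts (WQ' W), InE1 A.valuation (WB W) Q ∧ p • Q = R := by
  classical
  cases R with
  | zero => exact ⟨0, inE1_zero, nsmul_zero _⟩
  | some c e hce =>
    have hc : 1 < A.valuation c := (inE1_some hce).mp hR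
    have hc0 : c ≠ 0 := by
      rintro rfl
      rw [map_zero] at hc
      exact not_lt.mpr zero_le_one hc
    have hs : A.valuation c⁻¹ < 1 := by
      rw [map_inv₀]; exact inv_lt_one_of_one_lt₀ hc
    have hs0 : c⁻¹ ≠ 0 := inv_ne_zero hc0
    obtain ⟨m, d, hpm, hdm, hd, hhigh⟩ := psi_data hA hp35 hc₄
    have h2p : 2 ≤ p := hp.out.two_le
    obtain ⟨hAm, hAd⟩ := ladA_monic (WB W) p h2p
    have hBd := ladB_natDegree_lt (WB W) p h2p
    set F : Qb[X] := C c⁻¹ * ladA (WB W) p - ladB (WB W) p with hF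
    have hAint : IntCoeff A.valuation (ladA (WB W) p) := by
      rw [ladA_WB]; exact intCoeff_map_int A _
    have hBint : IntCoeff A.valuation (ladB (WB W) p) := by
      rw [ladB_WB]; exact intCoeff_map_int A _
    have hψint : IntCoeff A.valuation (ladF (WB W) m) := by
      rw [ladF_WB]; exact intCoeff_map_int A _
    -- the leading coefficient
    have hdegA : (C c⁻¹ * ladA (WB W) p).natDegree = p ^ 2 := by
      rw [natDegree_C_mul hs0, hAd]
    have hlt : (ladB (WB W) p).degree < (C c⁻¹ * ladA (WB W) p).degree := by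
      apply degree_lt_degree
      rw [hdegA]; exact hBd
    have hlead : F.leadingCoeff = c⁻¹ := by
      rw [hF, leadingCoeff_sub_of_degree_lt hlt, leadingCoeff_mul, leadingCoeff_C,
        hAm.leadingCoeff, mul_one]
    -- a unit coefficient
    have hBsq : ladB (WB W) p = ladF (WB W) m ^ 2 := by
      rw [hpm]; exact ladB_odd (WB W) m
    have hunitB : A.valuation ((ladB (WB W) p).coeff (2 * d)) = 1 := by
      rw [hBsq]; exact coeff_sq_unit hψint hd hhigh
    have hunit : A.valuation (F.coeff (2 * d)) = 1 := by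
      rw [hF, coeff_sub, coeff_C_mul]
      have h1 : A.valuation (c⁻¹ * (ladA (WB W) p).coeff (2 * d)) < 1 := by
        rw [map_mul]
        calc A.valuation c⁻¹ * A.valuation ((ladA (WB W) p).coeff (2 * d))
            ≤ A.valuation c⁻¹ * 1 := mul_le_mul' le_rfl (hAint _)
          _ = A.valuation c⁻¹ := mul_one _
          _ < 1 := hs
      rw [Valuation.map_sub_eq_of_lt_right, hunitB]
      rw [hunitB]; exact h1
    obtain ⟨r, hr, hroot⟩ := exists_big_root F (by rw [hlead]; exact hs) (2 * d) hunit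
    obtain ⟨y, hy⟩ := exists_equation_of_x (WB W) r
    have hns : (WB W).Nonsingular r y :=
      (Affine.equation_iff_nonsingular_of_Δ_ne_zero (WB_Δ_ne_zero hΔ)).mp hy
    have hx := xrep_ladAB (WB W) hns p
    have hFr : c⁻¹ * (ladA (WB W) p).eval r = (ladB (WB W) p).eval r := by
      have := hroot
      rw [IsRoot.def, hF, eval_sub, eval_mul, eval_C] at this
      exact sub_eq_zero.mp this
    have hQ0 : InE1 A.valuation (WB W) (Affine.Point.some r y hns) := (inE1_some hns).mpr hr
    rcases hpQ : p • (Affine.Point.some r y hns : (WB W).Point) with _ | ⟨x', y', h'⟩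
    · exfalso
      rw [hpQ] at hx
      obtain ⟨hZ, hX⟩ := hx
      rw [hZ] at hFr
      exact hX ((mul_eq_zero.mp hFr).resolve_left hs0)
    · rw [hpQ] at hx
      obtain ⟨hZ, hX⟩ := hx
      have hxc : x' = c := by
        rw [hX] at hFr
        have : (c⁻¹ * x' - 1) * (ladB (WB W) p).eval r = 0 := by linear_combination hFr
        have h1 : c⁻¹ * x' = 1 := sub_eq_zero.mp ((mul_eq_zero.mp this).resolve_right hZ)
        field_simp at h1
        exact h1
      subst hxc
      rcases eq_or_eq_neg_of_X_eq (WB W) h' hce with h1 | h1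
      · exact ⟨_, hQ0, by rw [hpQ, h1]⟩
      · refine ⟨-(Affine.Point.some r y hns), InE1.neg hQ0, ?_⟩
        rw [neg_nsmul, hpQ, h1, neg_neg]

end Fermat.Agent.S59lib.StrictW

end
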